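import Fermat.Agent.RT.Coh.Eisenstein
import Fermat.Agent.LevelRaise.HeckeOp
import Fermat.Prelude.Def_ModularCurve_GenusNumerics

/-!
# Non-Eisenstein classes of `Γ₀(N)` are parabolic

Evaluation at a parabolic element, at a cusp of any width, is multiplied by `ℓ + 1` by `T ℓ` for
`ℓ ≡ 1` modulo `N`.
-/

set_option autoImplicit false

noncomputable section

namespace FLTAgent.RT

open LevelRaise CongruenceSubgroup
open scoped MatrixGroups
open ModularGroup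

variable {N : ℕ} [NeZero N] {A : Type*} [AddCommGroup A]

omit [NeZero N] in
theorem conj_T_zpow_mem_gamma0 {x : SL(2, ℤ)} {h : ℕ}
    (hx : x * (T : SL(2, ℤ)) ^ (h : ℤ) * x⁻¹ ∈ Gamma0 N) (m : ℤ) :
    x * (T : SL(2, ℤ)) ^ ((h : ℤ) * m) * x⁻¹ ∈ Gamma0 N := by
  rw [zpow_mul, ← conj_zpow]
  exact zpow_mem hx m

/-- `T ℓ` at `x T^h x⁻¹` when `h ∣ N` and `ℓ ≡ 1` modulo `N`. -/
theorem heckeOp_apply_conj_T {ℓ : ℕ} [NeZero ℓ] (hℓ : ℓ.Prime) (hℓN : ¬ ℓ ∣ N)
    (hℓ1 : (ℓ : ZMod N) = 1) {x : SL(2, ℤ)} {h : ℕ} (hh : h ∣ N)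
    (hx : x * (T : SL(2, ℤ)) ^ (h : ℤ) * x⁻¹ ∈ Gamma0 N) (φ : Additive (Gamma0 N) →+ A) :
    heckeOp N ℓ φ (Additive.ofMul ⟨_, hx⟩) = (ℓ + 1) • φ (Additive.ofMul ⟨_, hx⟩) := by
  have : Fact ℓ.Prime := ⟨hℓ⟩
  obtain ⟨c, hc⟩ : (N : ℤ) ∣ (ℓ : ℤ) - 1 := by
    rw [← ZMod.intCast_zmod_eq_zero_iff_dvd]; push_cast; rw [hℓ1, sub_self]
  obtain ⟨n, hn⟩ := hh
  have hn' : (N : ℤ) = (h : ℤ) * n := by exact_mod_cast hn
  have hnℓ : (n : ZMod ℓ) ≠ 0 := fun h0 =>
    hℓN (((ZMod.natCast_eq_zero_iff _ _).mp h0).trans ⟨h, by rw [hn, mul_comm]⟩)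
  -- the conjugated congruent representatives
  let η : Option (ZMod ℓ) → Matrix (Fin 2) (Fin 2) ℤ := fun i =>
    matSL x * congRep N ℓ i * matSL x⁻¹
  have hxx : matSL x * matSL x⁻¹ = 1 := by rw [← matSL_mul, mul_inv_cancel, matSL_one]
  have hη : ∀ i, ∃ (k : Option (ZMod ℓ)) (δ : Gamma0 N),
      η i = matSL (δ : SL(2, ℤ)) * tRepZ ℓ k := by
    intro i
    obtain ⟨E, hE⟩ : ∃ E : Matrix (Fin 2) (Fin 2) ℤ, congRep N ℓ i = 1 + (N : ℤ) • E := by
      rcases i with _ | j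
      · refine ⟨!![c, 0; 0, 0], ?_⟩
        ext r s
        fin_cases r <;> fin_cases s <;> simp [congRep]
        linear_combination hc
      · refine ⟨!![0, (j.val : ℤ); 0, c], ?_⟩
        ext r s
        fin_cases r <;> fin_cases s <;> simp [congRep, -ZMod.natCast_val]
        · ring
        · linear_combination hc
    have hηE : η i = 1 + (N : ℤ) • (matSL x * E * matSL x⁻¹) := by
      simp only [η, hE, Matrix.mul_add, Matrix.add_mul, Matrix.mul_one, hxx, Matrix.mul_smul,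
        Matrix.smul_mul]
    refine exists_eq_mul_tRepZ hℓ hℓN (η i) ?_ ⟨(matSL x * E * matSL x⁻¹) 1 0, by
      rw [hηE, Matrix.add_apply, Matrix.smul_apply, Matrix.one_apply_ne (by decide), zero_add,
        smul_eq_mul]⟩
    simp only [η, Matrix.det_mul, x.det_coe, x⁻¹.det_coe, one_mul, mul_one]
    rcases i with _ | j <;> simp [congRep, Matrix.det_fin_two_of]
  choose e d hd using hη
  have hinj : Function.Injective e := fun i j hij => by
    refine congRep_distinct hℓN i j (x⁻¹ * ((d i : SL(2, ℤ)) * (d j : SL(2, ℤ))⁻¹) * x) ?_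
    have h1 : η i = matSL ((d i : SL(2, ℤ)) * (d j : SL(2, ℤ))⁻¹) * η j := by
      rw [hd j, matSL_mul, Matrix.mul_assoc, matSL_inv_mul_cancel, hd i, hij]
    have h2 := congrArg (fun X => matSL x⁻¹ * X * matSL x) h1
    simp only [η, Matrix.mul_assoc] at h2
    rw [show matSL x⁻¹ * matSL x = 1 by rw [← matSL_mul, inv_mul_cancel, matSL_one], Matrix.mul_one,
      Matrix.mul_one, matSL_inv_mul_cancel] at h2
    rw [h2]
    simp only [matSL_mul, Matrix.mul_assoc]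
  let e' := Equiv.ofBijective e (Finite.injective_iff_bijective.mp hinj)
  -- the permutation of the congruent representatives
  let a : ZMod ℓ := (n : ZMod ℓ)⁻¹
  have ht : ∀ j : ZMod ℓ, ∃ t : ℤ,
      1 + (n : ℤ) * (j.val : ℤ) = (n : ℤ) * ((j + a).val : ℤ) + t * ℓ := fun j => by
    obtain ⟨t, ht⟩ : (ℓ : ℤ) ∣ 1 + (n : ℤ) * (j.val : ℤ) - (n : ℤ) * ((j + a).val : ℤ) := by
      rw [← ZMod.intCast_zmod_eq_zero_iff_dvd]
      push_cast
      rw [ZMod.natCast_zmod_val, ZMod.natCast_zmod_val, mul_add, mul_inv_cancel₀ hnℓ]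
      ring
    exact ⟨t, by linear_combination ht⟩
  choose t ht using ht
  let T' : Option (ZMod ℓ) → ℤ := fun i => i.elim (ℓ : ℤ) t
  let s : Equiv.Perm (Option (ZMod ℓ)) := (Equiv.addRight a).optionCongr
  have hstep : ∀ i, congRep N ℓ i * matSL ((T : SL(2, ℤ)) ^ (h : ℤ)) =
      matSL ((T : SL(2, ℤ)) ^ ((h : ℤ) * T' i)) * congRep N ℓ (s i) := by
    intro i
    rw [show ∀ m : ℤ, matSL ((T : SL(2, ℤ)) ^ m) = !![1, m; 0, 1] from coe_T_zpow,
      show ∀ m : ℤ, matSL ((T : SL(2, ℤ)) ^ m) = !![1, m; 0, 1] from coe_T_zpow]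
    rcases i with _ | j
    · ext r r'
      fin_cases r <;> fin_cases r' <;>
        simp [congRep, s, T', Matrix.mul_apply, Fin.sum_univ_two] <;> ring
    · ext r r'
      fin_cases r <;> fin_cases r' <;>
        simp [congRep, s, T', Matrix.mul_apply, Fin.sum_univ_two,
          -ZMod.natCast_val]
      linear_combination (h : ℤ) * ht j + ((j.val : ℤ) - ((j + a).val : ℤ)) * hn'
  let F : ℤ →+ A := AddMonoidHom.mk'
    (fun m => φ (Additive.ofMul ⟨_, conj_T_zpow_mem_gamma0 hx m⟩)) fun m m' => by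
      rw [← map_add, ← ofMul_mul]
      congr 2
      apply Subtype.ext
      show x * (T : SL(2, ℤ)) ^ ((h : ℤ) * (m + m')) * x⁻¹ =
        (x * (T : SL(2, ℤ)) ^ ((h : ℤ) * m) * x⁻¹) * (x * (T : SL(2, ℤ)) ^ ((h : ℤ) * m') * x⁻¹)
      rw [mul_add, zpow_add]
      group
  have hF1 : F 1 = φ (Additive.ofMul ⟨_, hx⟩) :=
    congrArg (fun g => φ (Additive.ofMul g)) (Subtype.ext
      (show x * (T : SL(2, ℤ)) ^ ((h : ℤ) * 1) * x⁻¹ = _ by rw [mul_one]))
  let w : Option (ZMod ℓ) → Gamma0 N := fun i =>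
    (d i)⁻¹ * ⟨_, conj_T_zpow_mem_gamma0 hx (T' i)⟩ * d (s i)
  have htr : IsTransferZ (tRepZ ℓ) (x * (T : SL(2, ℤ)) ^ (h : ℤ) * x⁻¹)
      ((e'.symm.trans s).trans e') (fun k => w (e'.symm k)) := by
    intro k
    obtain ⟨i, rfl⟩ := e'.surjective k
    simp only [Equiv.trans_apply, Equiv.symm_apply_apply]
    show tRepZ ℓ (e i) * _ = matSL (w i : SL(2, ℤ)) * tRepZ ℓ (e (s i))
    have h1 : tRepZ ℓ (e i) = matSL ((d i : SL(2, ℤ))⁻¹) * η i := by
      rw [hd i, matSL_inv_mul_cancel]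
    rw [h1]
    simp only [w, η, Subgroup.coe_mul, Subgroup.coe_inv, matSL_mul, Matrix.mul_assoc]
    rw [matSL_inv_mul_cancel x, ← Matrix.mul_assoc (congRep N ℓ i), hstep i]
    rw [← hd (s i)]
    simp only [η, Matrix.mul_assoc]
    rw [matSL_inv_mul_cancel x]
  rw [heckeOp_apply hℓ hℓN φ _ htr, ← Equiv.sum_comp e' (fun k => φ (Additive.ofMul (w (e'.symm k))))]
  simp only [Equiv.symm_apply_apply, w, ofMul_mul, ofMul_inv, map_add, map_neg,
    Finset.sum_add_distrib, Finset.sum_neg_distrib]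
  rw [Equiv.sum_comp s (fun i => φ (Additive.ofMul (d i)))]
  show -(∑ i, φ (Additive.ofMul (d i))) + ∑ i, F (T' i) + ∑ i, φ (Additive.ofMul (d i)) = _
  rw [neg_add_cancel_comm, ← map_sum, ← hF1, ← map_nsmul]
  congr 1
  have hsum : ∑ j : ZMod ℓ, (t j * (ℓ : ℤ)) = ℓ := by
    have h1 : ∀ j, t j * (ℓ : ℤ) = 1 + ((n : ℤ) * (j.val : ℤ) - (n : ℤ) * ((j + a).val : ℤ)) :=
      fun j => by linear_combination -(ht j)
    simp only [h1, Finset.sum_add_distrib, Finset.sum_sub_distrib, Finset.sum_const,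
      Finset.card_univ, ZMod.card, nsmul_eq_mul, mul_one]
    rw [show ∑ j : ZMod ℓ, (n : ℤ) * ((j + a).val : ℤ) = ∑ j : ZMod ℓ, (n : ℤ) * (j.val : ℤ) from
      Equiv.sum_comp (Equiv.addRight a) (fun j => (n : ℤ) * (j.val : ℤ)), sub_self, add_zero]
  have hsum' : ∑ j : ZMod ℓ, t j = 1 := by
    refine mul_right_cancel₀ (Int.natCast_ne_zero.mpr hℓ.ne_zero) ?_
    rw [Finset.sum_mul, hsum, one_mul]
  rw [Fintype.sum_option]
  simp [T', hsum']

/-- Elliptic elements of order four are killed where `2` is invertible, those of order three where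
`3` is invertible or `Γ₀(N)` has none. -/
theorem apply_eq_zero_of_trace_sq_lt (h2 : ∀ a : A, 2 • a = 0 → a = 0)
    (h3 : (∀ a : A, 3 • a = 0 → a = 0) ∨ ModularCurve.nuThree N = 0)
    (φ : Additive (Gamma0 N) →+ A) {γ : Gamma0 N} (hγ : trSL (γ : SL(2, ℤ)) ^ 2 < 4) :
    φ (Additive.ofMul γ) = 0 := by
  set m := matSL (γ : SL(2, ℤ))
  have hdet : m 0 0 * m 1 1 - m 0 1 * m 1 0 = 1 := det_matSL _
  have htr : trSL (γ : SL(2, ℤ)) = m 0 0 + m 1 1 := Matrix.trace_fin_two _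
  have hsq : matSL ((γ : SL(2, ℤ)) * γ) = trSL (γ : SL(2, ℤ)) • m - 1 := by
    rw [matSL_mul, htr]
    ext i j
    rw [Matrix.sub_apply, Matrix.smul_apply, smul_eq_mul, Matrix.mul_apply, Fin.sum_univ_two]
    fin_cases i <;> fin_cases j <;> simp [m] at hdet ⊢ <;>
      first
        | ring1
        | linear_combination -hdet
  have hpow : ∀ k : ℕ, ((γ ^ k : Gamma0 N) : SL(2, ℤ)) = 1 → k • φ (Additive.ofMul γ) = 0 :=
    fun k hk => by
      rw [← map_nsmul, ← ofMul_pow, show γ ^ k = 1 from Subtype.ext hk, ofMul_one, map_zero]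
  obtain h | h | h : trSL (γ : SL(2, ℤ)) = 0 ∨ trSL (γ : SL(2, ℤ)) = 1 ∨
      trSL (γ : SL(2, ℤ)) = -1 := by
    have h1 : -2 < trSL (γ : SL(2, ℤ)) := by nlinarith
    have h2 : trSL (γ : SL(2, ℤ)) < 2 := by nlinarith
    omega
  · rw [h, zero_smul, zero_sub] at hsq
    refine h2 _ (h2 _ ?_)
    rw [← mul_nsmul']
    refine hpow 4 (Subtype.ext ?_)
    show matSL ((γ : SL(2, ℤ)) ^ 4) = 1
    rw [show (γ : SL(2, ℤ)) ^ 4 = ((γ : SL(2, ℤ)) * γ) * ((γ : SL(2, ℤ)) * γ) by simp only [pow_succ, pow_zero, one_mul, mul_assoc], matSL_mul,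
      hsq, neg_mul_neg, one_mul]
  all_goals
    rcases h3 with h3 | h3
    swap
    · exfalso
      obtain ⟨k, hk⟩ := mem_gamma0_iff.mp γ.2
      unfold ModularCurve.nuThree at h3
      rw [Nat.card_eq_zero] at h3
      rcases h3 with h3 | h3
      · refine h3.false ⟨-(trSL (γ : SL(2, ℤ)) * m 0 0 : ℤ), ?_⟩
        have hk' : ((m 1 0 : ℤ) : ZMod N) = 0 :=
          (ZMod.intCast_zmod_eq_zero_iff_dvd _ _).mpr ⟨k, hk⟩
        have hd' := congrArg (fun z : ℤ => (z : ZMod N)) hdet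
        have ht' := congrArg (fun z : ℤ => (z : ZMod N)) (htr.symm.trans h)
        push_cast at hd' ht' ⊢
        rw [hk'] at hd'
        rw [h]
        push_cast
        linear_combination (m 0 0 : ZMod N) * ht' - hd'
      · exact not_finite {x : ZMod N // x ^ 2 + x + 1 = 0}
    · first
        | (rw [h, one_smul] at hsq
           refine h2 _ (h3 _ ?_)
           rw [← mul_nsmul']
           refine hpow 6 (Subtype.ext ?_)
           show matSL ((γ : SL(2, ℤ)) ^ 6) = 1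
           have hc : matSL ((γ : SL(2, ℤ)) ^ 3) = -1 := by
             rw [show (γ : SL(2, ℤ)) ^ 3 = (γ : SL(2, ℤ)) * ((γ : SL(2, ℤ)) * γ) by simp only [pow_succ, pow_zero, one_mul, mul_assoc],
               matSL_mul, hsq, mul_sub, mul_one, ← matSL_mul, hsq, sub_sub_cancel_left]
           rw [show (γ : SL(2, ℤ)) ^ 6 = (γ : SL(2, ℤ)) ^ 3 * (γ : SL(2, ℤ)) ^ 3 by simp only [pow_succ, pow_zero, one_mul, mul_assoc],
             matSL_mul, hc, neg_mul_neg, one_mul])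
        | (rw [h, neg_smul, one_smul] at hsq
           refine h3 _ (hpow 3 (Subtype.ext ?_))
           show matSL ((γ : SL(2, ℤ)) ^ 3) = 1
           rw [show (γ : SL(2, ℤ)) ^ 3 = (γ : SL(2, ℤ)) * ((γ : SL(2, ℤ)) * γ) by simp only [pow_succ, pow_zero, one_mul, mul_assoc],
             matSL_mul, hsq, mul_sub, mul_one, mul_neg, ← matSL_mul, hsq]
           abel)

/-- A class on which some `T ℓ - a` is nilpotent, with `ℓ ≡ 1` modulo `N` and `a - (ℓ + 1)`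
invertible, is parabolic. -/
theorem mem_parHom_of_nilpotent {R : Type*} [CommRing R] [Module R A] {ℓ : ℕ} [NeZero ℓ]
    (hℓ : ℓ.Prime) (hℓN : ¬ ℓ ∣ N) (hℓ1 : (ℓ : ZMod N) = 1) {a : R}
    (ha : IsUnit (((ℓ + 1 : ℕ) : R) - a)) (h2 : ∀ x : A, 2 • x = 0 → x = 0)
    (h3 : (∀ x : A, 3 • x = 0 → x = 0) ∨ ModularCurve.nuThree N = 0)
    (φ : Additive (Gamma0 N) →+ A) {m : ℕ}
    (hφ : (fun ψ => heckeOp N ℓ ψ - a • ψ)^[m] φ = 0) : φ ∈ parHom (Gamma0 N) A := by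
  intro γ hγ
  rcases lt_or_eq_of_le hγ with hlt | heq
  · exact apply_eq_zero_of_trace_sq_lt h2 h3 φ hlt
  have hpar : ∀ γ : Gamma0 N, trSL (γ : SL(2, ℤ)) = 2 → φ (Additive.ofMul γ) = 0 := by
    intro γ hγ2
    obtain ⟨x, k, hk⟩ := exists_conj_T_zpow hγ2
    let g := Int.gcd k N
    have hg : (g : ℤ) = k * Int.gcdA k N + N * Int.gcdB k N := Int.gcd_eq_gcd_ab k N
    have hγN : x * (T : SL(2, ℤ)) ^ (N : ℤ) * x⁻¹ ∈ Gamma0 N := by
      refine mem_gamma0_iff.mpr ?_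
      rw [matSL_mul, matSL_mul, show matSL ((T : SL(2, ℤ)) ^ (N : ℤ)) =
        1 + (N : ℤ) • !![0, 1; 0, 0] by
          rw [show ∀ m : ℤ, matSL ((T : SL(2, ℤ)) ^ m) = !![1, m; 0, 1] from coe_T_zpow]
          ext i j; fin_cases i <;> fin_cases j <;> simp,
        Matrix.mul_add, Matrix.mul_one, Matrix.add_mul, ← matSL_mul, mul_inv_cancel, matSL_one,
        Matrix.mul_smul, Matrix.smul_mul, Matrix.add_apply, Matrix.smul_apply,
        Matrix.one_apply_ne (by decide), zero_add, smul_eq_mul]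
      exact dvd_mul_right _ _
    have hgmem : x * (T : SL(2, ℤ)) ^ (g : ℤ) * x⁻¹ ∈ Gamma0 N := by
      rw [hg, zpow_add, zpow_mul, zpow_mul]
      rw [show x * (((T : SL(2, ℤ)) ^ k) ^ Int.gcdA k N * ((T : SL(2, ℤ)) ^ (N : ℤ)) ^ Int.gcdB k N)
          * x⁻¹ = (x * (T : SL(2, ℤ)) ^ k * x⁻¹) ^ Int.gcdA k N
            * (x * (T : SL(2, ℤ)) ^ (N : ℤ) * x⁻¹) ^ Int.gcdB k N by rw [conj_zpow, conj_zpow]; group]
      exact mul_mem (zpow_mem (hk ▸ γ.2) _) (zpow_mem hγN _)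
    have h0 : φ (Additive.ofMul ⟨_, hgmem⟩) = 0 := by
      have hiter : ∀ j : ℕ, ((fun ψ => heckeOp N ℓ ψ - a • ψ)^[j] φ) (Additive.ofMul ⟨_, hgmem⟩)
          = (((ℓ + 1 : ℕ) : R) - a) ^ j • φ (Additive.ofMul ⟨_, hgmem⟩) := by
        intro j
        induction j with
        | zero => simp
        | succ j ih =>
          rw [Function.iterate_succ_apply', AddMonoidHom.sub_apply,
            heckeOp_apply_conj_T hℓ hℓN hℓ1 (by
              exact_mod_cast (Int.gcd_dvd_right k N)) hgmem, AddMonoidHom.smul_apply, ih,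
            pow_succ', mul_smul, sub_smul, Nat.cast_smul_eq_nsmul]
      have := hiter m
      rw [hφ, AddMonoidHom.zero_apply] at this
      exact (ha.pow m).smul_eq_zero.mp this.symm
    obtain ⟨r, hr⟩ : (g : ℤ) ∣ k := Int.gcd_dvd_left k N
    rw [show γ = (⟨_, hgmem⟩ : Gamma0 N) ^ r from Subtype.ext (by
      rw [Subgroup.coe_zpow, conj_zpow, ← zpow_mul, ← hr]; exact hk), ofMul_zpow, map_zsmul, h0,
      zsmul_zero]
  obtain h | h := sq_eq_sq_iff_eq_or_eq_neg.mp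
    (show trSL (γ : SL(2, ℤ)) ^ 2 = (2 : ℤ) ^ 2 by rw [heq]; norm_num)
  · exact hpar γ h
  · let γ' : Gamma0 N := ⟨-1, neg_one_mem_gamma0 N⟩ * γ
    have h' : φ (Additive.ofMul γ') = 0 := hpar γ' (by
      show trSL (-1 * (γ : SL(2, ℤ))) = 2
      rw [show -1 * (γ : SL(2, ℤ)) = -(γ : SL(2, ℤ)) by simp, trSL_neg, h, neg_neg])
    rw [ofMul_mul, map_add] at h'
    have hn : φ (Additive.ofMul (⟨-1, neg_one_mem_gamma0 N⟩ : Gamma0 N)) = 0 := by
      refine h2 _ ?_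
      rw [← map_nsmul, ← ofMul_pow,
        show (⟨-1, neg_one_mem_gamma0 N⟩ : Gamma0 N) ^ 2 = 1 from Subtype.ext (by simp),
        ofMul_one, map_zero]
    rwa [hn, zero_add] at h'

end FLTAgent.RT
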