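import Fermat.Agent.RT.Coh.CharChange
import Fermat.Agent.LevelRaise.Operators

/-!
# Trivial character: `Coh N trivChar` and homomorphisms of `Γ₀(N)`
-/

set_option autoImplicit false

noncomputable section

namespace FLTAgent.RT

open LevelRaise CongruenceSubgroup
open scoped MatrixGroups

/-- Transfer as a sum over representatives. -/
theorem cores_eq_sum_of_transfer {ι : Type*} [Fintype ι] {Γ Γ' : Subgroup SL(2, ℤ)}
    [Γ'.FiniteIndex] {A : Type*} [AddCommGroup A] (h : Γ' ≤ Γ) (r : ι → Γ)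
    (hinj : ∀ i j, ((r i : SL(2, ℤ)) * (r j : SL(2, ℤ))⁻¹) ∈ Γ' → i = j)
    (hsurj : ∀ γ : Γ, ∃ i, ((γ : SL(2, ℤ)) * (r i : SL(2, ℤ))⁻¹) ∈ Γ')
    (φ : Additive Γ' →+ A) (γ : Γ) (σ : Equiv.Perm ι) (δ : ι → Γ')
    (ht : ∀ i, (r i : SL(2, ℤ)) * γ = δ i * r (σ i)) :
    cores h φ (Additive.ofMul γ) = ∑ i, φ (Additive.ofMul (δ i)) := by
  classical
  obtain ⟨x, c, hx, hfib, hc⟩ := exists_fibre_param h r hinj hsurj
  rw [cores_apply_param h x hx hfib,
    ← Equiv.sum_comp σ (fun i => φ (Additive.ofMul (cellG (γ : SL(2, ℤ)) (x i))))]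
  have hout : ∀ i, (x i).out = (r i : SL(2, ℤ))⁻¹ * (c i : SL(2, ℤ))⁻¹ := fun i => by
    rw [← mul_inv_rev, ← hc, inv_inv]
  have key : ∀ i, φ (Additive.ofMul (cellG (γ : SL(2, ℤ)) (x (σ i)))) =
      φ (Additive.ofMul (δ i)) + (φ (Additive.ofMul (c i)) - φ (Additive.ofMul (c (σ i)))) := by
    intro i
    have hsm : (γ : SL(2, ℤ)) • x (σ i) = x i := by
      conv_lhs => rw [← QuotientGroup.out_eq' (x (σ i))]
      conv_rhs => rw [← QuotientGroup.out_eq' (x i)]
      rw [MulAction.Quotient.smul_mk, smul_eq_mul]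
      refine (QuotientGroup.eq.mpr ?_).symm
      have h1 := Γ'.mul_mem (Γ'.mul_mem (c i).2 (δ i).2) (Γ'.inv_mem (c (σ i)).2)
      convert h1 using 1
      have h2 : (r i : SL(2, ℤ)) * γ * (r (σ i) : SL(2, ℤ))⁻¹ = δ i := by
        rw [ht, mul_inv_cancel_right]
      rw [hout, hout, ← h2]
      group
    have e : cellG (γ : SL(2, ℤ)) (x (σ i)) = c i * δ i * (c (σ i))⁻¹ := by
      apply Subtype.ext
      have h2 : (r i : SL(2, ℤ)) * γ * (r (σ i) : SL(2, ℤ))⁻¹ = δ i := by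
        rw [ht, mul_inv_cancel_right]
      simp only [cellG, hsm, hout, Subgroup.coe_mul, Subgroup.coe_inv, ← h2]
      group
    rw [e, ofMul_mul, ofMul_mul, map_add, map_add, ofMul_inv, map_neg]
    abel
  simp only [key, Finset.sum_add_distrib, Finset.sum_sub_distrib]
  rw [show ∑ i, φ (Additive.ofMul (c (σ i))) = ∑ i, φ (Additive.ofMul (c i)) from
    Equiv.sum_comp σ (fun i => φ (Additive.ofMul (c i))), sub_self, add_zero]

variable {A : Type*} [AddCommGroup A] {N : ℕ}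

theorem gamma0_le_triv (N : ℕ) : Gamma0 N ≤ gammaH N trivChar := (gammaH_trivChar N).ge

/-- A class for the trivial character as a homomorphism of `Γ₀(N)`. -/
def toG0 (N : ℕ) : Coh N trivChar A ≃+ (Additive (Gamma0 N) →+ A) where
  toFun φ := resHom (gamma0_le_triv N) φ
  invFun ψ := resHom gammaH_le ψ
  left_inv _ := AddMonoidHom.ext fun _ => rfl
  right_inv _ := AddMonoidHom.ext fun _ => rfl
  map_add' _ _ := AddMonoidHom.ext fun _ => rfl

theorem toG0_apply (φ : Coh N trivChar A) (γ : Gamma0 N) :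
    toG0 N φ (Additive.ofMul γ) = φ (Additive.ofMul ⟨γ, gamma0_le_triv N γ.2⟩) := rfl

theorem toG0_smul {R : Type*} [CommRing R] [Module R A] (c : R) (φ : Coh N trivChar A) :
    toG0 N (c • φ) = c • toG0 N φ :=
  AddMonoidHom.ext fun _ => rfl

theorem toG0_map {B : Type*} [AddCommGroup B] (f : A →+ B) (φ : Coh N trivChar A) :
    toG0 N (f.comp φ) = f.comp (toG0 N φ) :=
  AddMonoidHom.ext fun _ => rfl

variable (R : Type*) [CommRing R] [Module R A] {q : ℕ} [NeZero N] [NeZero q] (W : WData N q)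

omit [NeZero N] [NeZero q] in
theorem toG0_resB (φ : Coh N trivChar A) :
    toG0 (N * q) (resB R trivChar (dvd_mul_right N q) φ) =
      resHom (gamma0_mul_le N q) (toG0 N φ) :=
  AddMonoidHom.ext fun γ => by
    obtain ⟨γ, rfl⟩ := Additive.ofMul.surjective γ
    rw [toG0_apply, resB_apply_apply]
    rfl

omit [NeZero q] in
theorem toG0_opW (φ : Coh (N * q) trivChar A) :
    toG0 (N * q) (opW R W trivChar (one_dvd N) φ) = W.wOp (toG0 (N * q) φ) := by
  obtain ⟨g, hg, -⟩ := exists_balW (χ := trivChar) W (one_dvd N)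
  refine AddMonoidHom.ext fun γ => ?_
  obtain ⟨γ, rfl⟩ := Additive.ofMul.surjective γ
  let δ : gammaH (N * q) trivChar :=
    ⟨((g * W.conjLE.hom γ * g⁻¹ : Gamma0 (N * q)) : SL(2, ℤ)), gamma0_le_triv _ (g * _ * _).2⟩
  rw [toG0_apply, opW, famTransferL_apply,
    famTransfer_apply _ φ _ (σ := 1) (δ := fun _ => δ) (fun _ => by
      show balW W trivChar * matSL (γ : SL(2, ℤ)) = matSL (δ : SL(2, ℤ)) * balW W trivChar
      rw [hg, Matrix.mul_assoc, W.conjLE.spec]
      simp only [δ, Subgroup.coe_mul, Subgroup.coe_inv, matSL_mul, Matrix.mul_assoc,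
        matSL_inv_mul_cancel])]
  rw [Fintype.sum_unique, WData.wOp, conjPull_apply, toG0_apply]
  let g' : gammaH (N * q) trivChar := ⟨g, gamma0_le_triv _ g.2⟩
  let h' : gammaH (N * q) trivChar := ⟨W.conjLE.hom γ, gamma0_le_triv _ (W.conjLE.hom γ).2⟩
  rw [show δ = g' * h' * g'⁻¹ from rfl, ofMul_mul, ofMul_mul, ofMul_inv, map_add, map_add, map_neg]
  show _ = φ (Additive.ofMul h')
  abel

theorem toG0_opT {ℓ : ℕ} [NeZero ℓ] (hℓ : ℓ.Prime) (hℓN : ¬ ℓ ∣ N) (φ : Coh N trivChar A) :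
    toG0 N (opT R A trivChar (one_dvd N) hℓ hℓN φ) = heckeOp N ℓ (toG0 N φ) := by
  choose g hg using fun i => exists_balRep (χ := trivChar) (one_dvd N) hℓ i
    (fun _ => hℓ.not_dvd_one)
  refine AddMonoidHom.ext fun γ => ?_
  obtain ⟨γ, rfl⟩ := Additive.ofMul.surjective γ
  obtain ⟨σ, δ, h⟩ := exists_transfer_tRepZ hℓ hℓN γ
  have : Fact ℓ.Prime := ⟨hℓ⟩
  let σ' : Equiv.Perm (Option (ZMod ℓ)) := Equiv.ofBijective σ
    (Finite.injective_iff_bijective.mp ((distinctFam_tRepZ ℓ hℓ.one_lt).injective h))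
  let g' : Option (ZMod ℓ) → gammaH N trivChar := fun i => ⟨g i, gamma0_le_triv _ (g i).2⟩
  let δ' : Option (ZMod ℓ) → gammaH N trivChar := fun i => ⟨δ i, gamma0_le_triv _ (δ i).2⟩
  rw [heckeOp_apply hℓ hℓN _ γ h, toG0_apply, opT_apply,
    famTransfer_apply _ φ _ (σ := σ') (δ := fun i => g' i * δ' i * (g' (σ i))⁻¹) (fun i => by
      show balRep N trivChar ℓ i * matSL (γ : SL(2, ℤ)) = _ * balRep N trivChar ℓ (σ i)
      rw [(hg i).1, (hg (σ i)).1, Matrix.mul_assoc, h i]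
      simp only [g', δ', Subgroup.coe_mul, Subgroup.coe_inv, matSL_mul, Matrix.mul_assoc,
        matSL_inv_mul_cancel])]
  simp only [ofMul_mul, ofMul_inv, map_add, map_neg, Finset.sum_add_distrib,
    Finset.sum_neg_distrib, toG0_apply]
  rw [show ∑ i, φ (Additive.ofMul (g' (σ i))) = ∑ i, φ (Additive.ofMul (g' i)) from
    Equiv.sum_comp σ' (fun i => φ (Additive.ofMul (g' i)))]
  show _ = ∑ i, φ (Additive.ofMul (δ' i))
  abel

theorem toG0_coresB (φ : Coh (N * q) trivChar A) :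
    toG0 N (coresB R W trivChar (one_dvd N) φ) =
      cores (gamma0_mul_le N q) (toG0 (N * q) φ) := by
  choose g r hr hb using fun i => exists_balCos (χ := trivChar) W i (one_dvd N)
  let r' : Option (ZMod q) → Gamma0 N := fun i => ⟨r i, gammaH_le (r i).2⟩
  refine AddMonoidHom.ext fun γ => ?_
  obtain ⟨γ, rfl⟩ := Additive.ofMul.surjective γ
  obtain ⟨σ, δ, h⟩ := (isFam_cores W (χ := trivChar) (one_dvd N)).exists_eq _ (gamma0_le_triv N γ.2)
  rw [toG0_apply, coresB, famTransferL_apply,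
    famTransfer_apply _ φ ⟨(γ : SL(2, ℤ)), gamma0_le_triv N γ.2⟩ h,
    cores_eq_sum_of_transfer (gamma0_mul_le N q) r'
      (fun i j hij => distinctIn_balCos W (one_dvd N) i j ⟨_, gamma0_le_triv _ hij⟩ (by
        show balCos W trivChar i = matSL _ * balCos W trivChar j
        rw [hb, hb, ← matSL_mul]
        simp [r']))
      (fun γ => by
        obtain ⟨i, ε, hi⟩ := exists_balCos_cover W (one_dvd N) (χ := trivChar)
          ⟨γ, gamma0_le_triv N γ.2⟩
        refine ⟨i, ?_⟩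
        rw [hb, ← matSL_mul] at hi
        show (γ : SL(2, ℤ)) * ((r i : SL(2, ℤ)))⁻¹ ∈ _
        rw [show (γ : SL(2, ℤ)) = (ε : SL(2, ℤ)) * r i from Subtype.ext hi, mul_inv_cancel_right]
        exact gammaH_le ε.2)
      _ γ σ (fun i => ⟨δ i, gammaH_le (δ i).2⟩) (fun i => Subtype.ext (by
        have := h i
        rw [hb, hb, ← matSL_mul, ← matSL_mul] at this
        exact this))]
  rfl

end FLTAgent.RT
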