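import Fermat.Agent.LevelRaise.HeckeComm
import Mathlib.LinearAlgebra.Dual.Lemmas

/-!
# The pairing is bilinear over the coefficient field; orthogonality and ranges
-/

set_option autoImplicit false

noncomputable section

namespace FLTAgent.RT

open LevelRaise CongruenceSubgroup
open scoped MatrixGroups

variable {k : Type*} [Field k] {Γ : Subgroup SL(2, ℤ)} [Γ.FiniteIndex]
  (hneg : (-1 : SL(2, ℤ)) ∈ Γ) (h2 : (2 : k) ≠ 0)

omit [Γ.FiniteIndex] in
theorem smul_mem_parHom {φ : Additive Γ →+ k} (hφ : φ ∈ parHom Γ k) (c : k) :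
    c • φ ∈ parHom Γ k := fun γ hγ => by
  rw [AddMonoidHom.smul_apply, hφ γ hγ, smul_zero]

include hneg h2 in
theorem pairing_smul_left {φ ψ : Additive Γ →+ k} (hφ : φ ∈ parHom Γ k) (hψ : ψ ∈ parHom Γ k)
    (c : k) : pairing (c • φ) ψ = c * pairing φ ψ := by
  obtain ⟨F, hF⟩ := exists_isQuadHom hneg h2 (parHom_le_ellHom hφ) (parHom_le_ellHom hψ)
  have h : IsQuadHom (c • φ) ψ (c • F) := ⟨fun γ δ => by
    simp only [Pi.smul_apply, AddMonoidHom.smul_apply, smul_eq_mul, hF.1]; ring,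
    fun γ hγ => by simp [hF.2 γ hγ]⟩
  rw [pairing_eq_sum_cuspElt hneg h2 hφ hψ hF,
    pairing_eq_sum_cuspElt hneg h2 (smul_mem_parHom hφ c) hψ h, Finset.mul_sum]
  rfl

include hneg h2 in
theorem pairing_smul_right {φ ψ : Additive Γ →+ k} (hφ : φ ∈ parHom Γ k) (hψ : ψ ∈ parHom Γ k)
    (c : k) : pairing φ (c • ψ) = c * pairing φ ψ := by
  obtain ⟨F, hF⟩ := exists_isQuadHom hneg h2 (parHom_le_ellHom hφ) (parHom_le_ellHom hψ)
  have h : IsQuadHom φ (c • ψ) (c • F) := ⟨fun γ δ => by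
    simp only [Pi.smul_apply, AddMonoidHom.smul_apply, smul_eq_mul, hF.1]; ring,
    fun γ hγ => by simp [hF.2 γ hγ]⟩
  rw [pairing_eq_sum_cuspElt hneg h2 hφ hψ hF,
    pairing_eq_sum_cuspElt hneg h2 hφ (smul_mem_parHom hψ c) h, Finset.mul_sum]
  rfl

variable (Γ k) in
/-- The parabolic homomorphisms as a subspace. -/
def parMod : Submodule k (Additive Γ →+ k) :=
  { parHom Γ k with smul_mem' := fun c _ h => smul_mem_parHom h c }

omit [Γ.FiniteIndex] in
theorem mem_parMod {φ : Additive Γ →+ k} : φ ∈ parMod k Γ ↔ φ ∈ parHom Γ k := Iff.rfl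

/-- The pairing as a bilinear map. -/
def pairMod : parMod k Γ →ₗ[k] parMod k Γ →ₗ[k] k :=
  LinearMap.mk₂ k (fun x y => pairing (x : Additive Γ →+ k) y)
    (fun x x' y => pairing_add_left hneg h2 x.2 x'.2 y.2)
    (fun c x y => pairing_smul_left hneg h2 x.2 y.2 c)
    (fun x y y' => pairing_add_right hneg h2 x.2 y.2 y'.2)
    (fun c x y => pairing_smul_right hneg h2 x.2 y.2 c)

theorem pairMod_apply (x y : parMod k Γ) :
    pairMod hneg h2 x y = pairing (x : Additive Γ →+ k) y := rfl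

theorem pairMod_eq_zero {x : parMod k Γ} (h : pairMod hneg h2 x = 0) : x = 0 :=
  Subtype.ext (eq_zero_of_pairing_eq_zero hneg h2 x.2 fun ψ hψ =>
    LinearMap.congr_fun h ⟨ψ, hψ⟩)

/-- A vector orthogonal to the orthogonal of a range lies in the range. -/
theorem mem_range_of_orthogonal {V Z : Type*} [AddCommGroup V] [Module k V] [FiniteDimensional k V]
    [AddCommMonoid Z] [Module k Z] (B : V →ₗ[k] V →ₗ[k] k) (hB : ∀ x, B x = 0 → x = 0)
    (δ : Z →ₗ[k] V) (u : V) (h : ∀ x, (∀ z, B x (δ z) = 0) → B x u = 0) :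
    u ∈ LinearMap.range δ := by
  by_contra hu
  obtain ⟨φ, hφu, hφ⟩ := Submodule.exists_le_ker_of_notMem hu
  obtain ⟨x, hx⟩ := (LinearMap.injective_iff_surjective_of_finrank_eq_finrank
    Subspace.dual_finrank_eq.symm).mp ((injective_iff_map_eq_zero _).mpr hB) φ
  refine hφu ?_
  rw [← hx]
  refine h x fun z => ?_
  rw [hx]
  exact LinearMap.mem_ker.mp (hφ ⟨z, rfl⟩)

/-- The criterion for pairs of vectors of a subspace. -/
theorem mem_range_prod_of_orthogonal {H Z : Type*} [AddCommGroup H] [Module k H]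
    {P : Submodule k H} [Finite P] [AddCommMonoid Z] [Module k Z]
    (b : P →ₗ[k] P →ₗ[k] k) (hb : ∀ x, b x = 0 → x = 0) (δ : Z →ₗ[k] P × P) (u : P × P)
    (h : ∀ x : P × P, (∀ z, b x.1 (δ z).1 + b x.2 (δ z).2 = 0) → b x.1 u.1 + b x.2 u.2 = 0) :
    u ∈ LinearMap.range δ := by
  have : FiniteDimensional k (P × P) := Module.Finite.of_finite
  refine mem_range_of_orthogonal
    (LinearMap.mk₂ k (fun x y : P × P => b x.1 y.1 + b x.2 y.2)
      (fun x x' y => by simp only [Prod.fst_add, Prod.snd_add, map_add, LinearMap.add_apply]; abel)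
      (fun c x y => by simp only [Prod.smul_fst, Prod.smul_snd, map_smul, LinearMap.smul_apply, smul_add])
      (fun x y y' => by simp only [Prod.fst_add, Prod.snd_add, map_add]; abel)
      (fun c x y => by simp only [Prod.smul_fst, Prod.smul_snd, map_smul, smul_add]))
    (fun x hx => ?_) δ u h
  refine Prod.ext (hb _ (LinearMap.ext fun ψ => ?_)) (hb _ (LinearMap.ext fun ψ => ?_))
  · simpa using LinearMap.congr_fun hx (ψ, 0)
  · simpa using LinearMap.congr_fun hx (0, ψ)

end FLTAgent.RT
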