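import Fermat.Agent.RT.Coh.Free
import Fermat.Agent.RT.Ihara.Bridge
import Fermat.Agent.RT.Ihara.Parabolic
import Fermat.Agent.RT.Ihara.Duality
import Fermat.Agent.LevelRaise.Ihara
import Fermat.Agent.LevelRaise.IntegralLift

/-!
# Ihara's lemma on the part of `Γ₀(N)`

For a non-Eisenstein part and a prime `q ∤ N`, the degeneracy map from two copies of level `N` to
level `N q` is injective modulo the maximal ideal and its adjoint is surjective.
-/

set_option autoImplicit false

noncomputable section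

namespace FLTAgent.RT

open LevelRaise CongruenceSubgroup IsLocalRing
open scoped MatrixGroups

/-- What is needed to raise the level at `q` from the level `N`. -/
structure RaiseHyp {O : Type*} [CommRing O] [IsLocalRing O] {ι : Type*} (N q : ℕ) (l : ι → ℕ)
    (a : ι → O) : Prop where
  ne : ∀ i, l i ≠ q
  nonEis : NonEis l a
  raise : ∀ S : Finset ℕ, ∃ i, l i ∉ S ∧ IsUnit (a i ^ 2 - ((l i : O) + 1) ^ 2)
  two : IsUnit (2 : O)
  three : IsUnit (3 : O) ∨ ModularCurve.nuThree N = 0

section Linear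

variable (k : Type*) [Field k] {N q : ℕ} [NeZero N]

theorem heckeOp_add {A : Type*} [AddCommGroup A] (ℓ : ℕ) [NeZero ℓ]
    (φ ψ : Additive (Gamma0 N) →+ A) :
    heckeOp N ℓ (φ + ψ) = heckeOp N ℓ φ + heckeOp N ℓ ψ := by
  simp only [heckeOp, conjPull, AddMonoidHom.add_comp]
  exact cores_add _ _ _

theorem smul_eq_comp {k : Type*} [Field k] {G : Type*} [AddZeroClass G] (c : k) (φ : G →+ k) :
    c • φ = (AddMonoidHom.mulLeft c).comp φ := AddMonoidHom.ext fun _ => rfl

/-- `T ℓ - c`. -/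
def shiftOp (ℓ : ℕ) [NeZero ℓ] (c : k) :
    (Additive (Gamma0 N) →+ k) →+ (Additive (Gamma0 N) →+ k) :=
  AddMonoidHom.mk' (fun ψ => heckeOp N ℓ ψ + (-c) • ψ) fun φ ψ => by
    simp only [heckeOp_add, smul_add]
    abel

theorem shiftOp_apply (ℓ : ℕ) [NeZero ℓ] (c : k) (ψ : Additive (Gamma0 N) →+ k) :
    shiftOp k ℓ c ψ = heckeOp N ℓ ψ + (-c) • ψ := rfl

theorem shiftOp_iterate_zero (ℓ : ℕ) [NeZero ℓ] (c : k) (m : ℕ) :
    (shiftOp k (N := N) ℓ c)^[m] 0 = 0 :=
  Function.iterate_fixed (map_zero _) m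

theorem shiftOp_mem {ℓ : ℕ} [NeZero ℓ] {c : k} {ψ : Additive (Gamma0 N) →+ k}
    (hψ : ψ ∈ parHom (Gamma0 N) k) : shiftOp k ℓ c ψ ∈ parHom (Gamma0 N) k :=
  add_mem (heckeOp_mem_parHom hψ) (smul_mem_parHom hψ _)

theorem pairing_shiftOp (h2 : (2 : k) ≠ 0) {ℓ : ℕ} [NeZero ℓ] (hℓ : ℓ.Prime) (hℓN : ¬ ℓ ∣ N)
    {c : k} {φ ψ : Additive (Gamma0 N) →+ k} (hφ : φ ∈ parHom (Gamma0 N) k)
    (hψ : ψ ∈ parHom (Gamma0 N) k) :
    pairing (shiftOp k ℓ c φ) ψ = pairing φ (shiftOp k ℓ c ψ) := by
  have hn := neg_one_mem_gamma0 N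
  rw [shiftOp_apply, shiftOp_apply, pairing_add_left hn h2 (heckeOp_mem_parHom hφ)
      (smul_mem_parHom hφ _) hψ, pairing_add_right hn h2 hφ (heckeOp_mem_parHom hψ)
      (smul_mem_parHom hψ _), pairing_smul_left hn h2 hφ hψ, pairing_smul_right hn h2 hφ hψ,
    pairing_heckeOp h2 hℓ hℓN hφ hψ]

theorem iterate_shiftOp_mem {ℓ : ℕ} [NeZero ℓ] {c : k} (m : ℕ) {ψ : Additive (Gamma0 N) →+ k}
    (hψ : ψ ∈ parHom (Gamma0 N) k) : (shiftOp k ℓ c)^[m] ψ ∈ parHom (Gamma0 N) k := by
  induction m with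
  | zero => exact hψ
  | succ m ih => rw [Function.iterate_succ_apply']; exact shiftOp_mem k ih

theorem pairing_iterate_shiftOp (h2 : (2 : k) ≠ 0) {ℓ : ℕ} [NeZero ℓ] (hℓ : ℓ.Prime)
    (hℓN : ¬ ℓ ∣ N) {c : k} (m : ℕ) {φ ψ : Additive (Gamma0 N) →+ k}
    (hφ : φ ∈ parHom (Gamma0 N) k) (hψ : ψ ∈ parHom (Gamma0 N) k) :
    pairing ((shiftOp k ℓ c)^[m] φ) ψ = pairing φ ((shiftOp k ℓ c)^[m] ψ) := by
  induction m generalizing φ with
  | zero => rfl
  | succ m ih =>
    rw [Function.iterate_succ_apply, ih (shiftOp_mem k hφ),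
      pairing_shiftOp k h2 hℓ hℓN hφ (iterate_shiftOp_mem k m hψ), Function.iterate_succ_apply']

variable {k} [NeZero q] (D : WData N q)

omit [NeZero N] [NeZero q] in
theorem deg_add (x x' y y' : Additive (Gamma0 N) →+ k) :
    D.deg (x + x') (y + y') = D.deg x y + D.deg x' y' := by
  simp only [WData.deg, resHom, WData.wOp, conjPull, AddMonoidHom.add_comp]
  exact add_add_add_comm _ _ _ _

/-- The degeneracy map on parabolic classes. -/
def degLin : parMod k (Gamma0 N) × parMod k (Gamma0 N) →ₗ[k] parMod k (Gamma0 (N * q)) where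
  toFun x := ⟨D.deg x.1.1 x.2.1, D.deg_mem_parHom x.1.2 x.2.2⟩
  map_add' x y := Subtype.ext (deg_add D _ _ _ _)
  map_smul' c x := Subtype.ext (by
    show D.deg (c • x.1.1) (c • x.2.1) = c • D.deg x.1.1 x.2.1
    simp only [WData.deg, resHom, WData.wOp, conjPull, smul_eq_comp, AddMonoidHom.comp_add,
      AddMonoidHom.comp_assoc])

/-- Its adjoint. -/
def adjLin : parMod k (Gamma0 (N * q)) →ₗ[k] parMod k (Gamma0 N) × parMod k (Gamma0 N) where
  toFun z := (⟨cores (gamma0_mul_le N q) z.1, cores_mem_parHom _ z.2⟩,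
    ⟨cores (gamma0_mul_le N q) (D.wOp z.1), cores_mem_parHom _ (D.wOp_mem_parHom z.2)⟩)
  map_add' z w := Prod.ext (Subtype.ext (cores_add _ _ _)) (Subtype.ext (by
    show cores _ (D.wOp (z.1 + w.1)) = _
    rw [show D.wOp (z.1 + w.1) = D.wOp z.1 + D.wOp w.1 from AddMonoidHom.ext fun _ => rfl,
      cores_add]
    rfl))
  map_smul' c z := Prod.ext (Subtype.ext (by
      show cores _ (c • z.1) = c • cores _ z.1
      rw [smul_eq_comp, map_cores, ← smul_eq_comp]))
    (Subtype.ext (by
      show cores _ (D.wOp (c • z.1)) = c • cores _ (D.wOp z.1)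
      rw [smul_eq_comp, D.map_wOp, map_cores, ← smul_eq_comp]))

end Linear

variable {O : Type*} [CommRing O] [IsDomain O] [IsDiscreteValuationRing O]
  [IsAdicComplete (maximalIdeal O) O] [Finite (ResidueField O)] [CharZero O]
  {N q : ℕ} [NeZero N] [NeZero q] {ι : Type*} {l : ι → ℕ} {a : ι → O}

variable (O N) in
/-- Reduction of classes for the trivial character. -/
def redG0 : Coh N trivChar O →+ (Additive (Gamma0 N) →+ ResidueField O) :=
  AddMonoidHom.mk' (fun φ => (residue O).toAddMonoidHom.comp (toG0 N φ)) fun φ ψ => by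
    simp only [map_add]
    exact AddMonoidHom.comp_add _ _ _

theorem redG0_def (φ : Coh N trivChar O) :
    redG0 O N φ = (residue O).toAddMonoidHom.comp (toG0 N φ) := rfl

theorem redG0_smul (c : O) (φ : Coh N trivChar O) :
    redG0 O N (c • φ) = residue O c • redG0 O N φ :=
  AddMonoidHom.ext fun _ => map_mul (residue O) _ _

theorem redG0_eq_zero_iff {φ : Coh N trivChar O} :
    redG0 O N φ = 0 ↔ ∀ γ : gammaH N trivChar, φ (Additive.ofMul γ) ∈ maximalIdeal O := by
  constructor
  · intro h γ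
    rw [← residue_eq_zero_iff]
    exact DFunLike.congr_fun h (Additive.ofMul (⟨γ, gammaH_le γ.2⟩ : Gamma0 N))
  · intro h
    refine AddMonoidHom.ext fun γ => ?_
    obtain ⟨γ, rfl⟩ := Additive.ofMul.surjective γ
    exact (residue_eq_zero_iff _).mpr (h ⟨γ, gamma0_le_triv N γ.2⟩)

theorem redG0_eq_zero_of_mem {φ : Coh N trivChar O}
    (h : φ ∈ maximalIdeal O • (⊤ : Submodule O (Coh N trivChar O))) : redG0 O N φ = 0 := by
  refine Submodule.smul_induction_on h (fun c hc ψ _ => ?_) fun x y hx hy => by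
    rw [map_add, hx, hy, add_zero]
  rw [redG0_smul, (residue_eq_zero_iff c).mpr hc, zero_smul]

theorem redG0_resB (φ : Coh N trivChar O) :
    redG0 O (N * q) (resB O trivChar (dvd_mul_right N q) φ) =
      resHom (gamma0_mul_le N q) (redG0 O N φ) := by
  rw [redG0_def, toG0_resB]; rfl

theorem redG0_opW (W : WData N q) (φ : Coh (N * q) trivChar O) :
    redG0 O (N * q) (opW O W trivChar (one_dvd N) φ) = W.wOp (redG0 O (N * q) φ) := by
  rw [redG0_def, toG0_opW]; rfl

theorem redG0_coresB (W : WData N q) (φ : Coh (N * q) trivChar O) :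
    redG0 O N (coresB O W trivChar (one_dvd N) φ) =
      cores (gamma0_mul_le N q) (redG0 O (N * q) φ) := by
  rw [redG0_def, redG0_def, toG0_coresB, map_cores]

theorem redG0_opP {ℓ : ℕ} [NeZero ℓ] (hℓ : ℓ.Prime) (hℓN : ¬ ℓ ∣ N) (φ : Coh N trivChar O) :
    redG0 O N (opP O O trivChar (one_dvd N) hℓ φ) = heckeOp N ℓ (redG0 O N φ) := by
  rw [redG0_def, opP_of_not_dvd O O (one_dvd N) hℓ hℓN, toG0_opT O hℓ hℓN,
    redG0_def, map_heckeOp]

variable (hl : ∀ i, (l i).Prime)

/-- Classes of the part are generalised eigenclasses modulo the maximal ideal. -/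
theorem exists_iterate_redG0_eq_zero (i : ι) [NeZero (l i)] (hiN : ¬ l i ∣ N)
    {φ : Coh N trivChar O} (hφ : φ ∈ cohPart trivChar (one_dvd N) hl a) :
    ∃ m, (shiftOp (ResidueField O) (N := N) (l i) (residue O (a i)))^[m] (redG0 O N φ) = 0 := by
  obtain ⟨m, hm⟩ := exists_pow_sub_mem_cohPart (χ := trivChar) (one_dvd N) hl a i 1
  refine ⟨m, ?_⟩
  have h : ∀ j ψ, redG0 O N
      (((opP O O trivChar (one_dvd N) (hl i) - a i • (1 : Module.End O (Coh N trivChar O))) ^ j) ψ) =
      (shiftOp (ResidueField O) (N := N) (l i) (residue O (a i)))^[j] (redG0 O N ψ) := by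
    intro j
    induction j with
    | zero => intro ψ; rfl
    | succ j ih =>
      intro ψ
      rw [pow_succ', Module.End.mul_apply, Function.iterate_succ_apply', ← ih, shiftOp_apply,
        LinearMap.sub_apply, map_sub, redG0_opP (hl i) hiN, LinearMap.smul_apply,
        Module.End.one_apply, redG0_smul, neg_smul, sub_eq_add_neg]
  rw [← h]
  exact redG0_eq_zero_of_mem (by simpa using hm φ hφ)

variable (H : RaiseHyp N q l a)
include H

theorem RaiseHyp.two_ne : (2 : ResidueField O) ≠ 0 := by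
  have := H.two.map (residue O)
  rw [map_ofNat] at this
  exact this.ne_zero

/-- Classes of the part are parabolic modulo the maximal ideal. -/
theorem RaiseHyp.redG0_mem_parMod {φ : Coh N trivChar O}
    (hφ : φ ∈ cohPart trivChar (one_dvd N) hl a) :
    redG0 O N φ ∈ parMod (ResidueField O) (Gamma0 N) := by
  obtain ⟨i, hiN, hi1, hu⟩ := H.nonEis.exists_index (N := N) hl
  have : NeZero (l i) := ⟨(hl i).ne_zero⟩
  obtain ⟨m, hm⟩ := exists_iterate_redG0_eq_zero hl i hiN hφ
  refine mem_parHom_of_nilpotent (hl i) hiN hi1 (a := residue O (a i)) ?_ ?_ ?_ _ (m := m) ?_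
  · have := hu.map (residue O)
    simpa using this
  · intro x hx
    rw [nsmul_eq_mul, Nat.cast_ofNat, mul_eq_zero, or_iff_right H.two_ne] at hx
    exact hx
  · refine H.three.imp (fun h3 x hx => ?_) id
    rw [nsmul_eq_mul, Nat.cast_ofNat, mul_eq_zero, or_iff_right] at hx
    · exact hx
    · have := h3.map (residue O)
      rw [map_ofNat] at this
      exact this.ne_zero
  · rw [← hm]
    congr 1
    funext ψ
    rw [shiftOp_apply, neg_smul, sub_eq_add_neg]

include hl in
/-- An auxiliary index separating the degeneracy kernel. -/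
theorem RaiseHyp.exists_aux (W : WData N q) :
    ∃ i, AuxPrime N q (l i) ∧ residue O (a i) ^ 2 ≠ ((l i : ResidueField O) + 1) ^ 2 := by
  obtain ⟨i, hiS, hu⟩ := H.raise
    (N.primeFactors ∪ ((q : ℤ) ^ (4 * N) - 1).natAbs.primeFactors)
  simp only [Finset.mem_union, not_or] at hiS
  have hpow : ((q : ℤ) ^ (4 * N) - 1).natAbs ≠ 0 := by
    rw [Int.natAbs_ne_zero, sub_ne_zero]
    have hN0 : 0 < N := Nat.pos_of_ne_zero (NeZero.ne N)
    exact (one_lt_pow₀ (by exact_mod_cast W.prime.one_lt) (by omega)).ne'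
  refine ⟨i,
    { q_prime := W.prime
      prime := hl i
      not_dvd_N := fun h => hiS.1 (Nat.mem_primeFactors.mpr ⟨hl i, h, NeZero.ne N⟩)
      q_not_dvd_N := W.not_dvd
      ne := H.ne i
      not_dvd_pow := fun h => hiS.2
        (Nat.mem_primeFactors.mpr ⟨hl i, Int.natCast_dvd.mp h, hpow⟩) }, ?_⟩
  intro h
  have h' := hu.map (residue O)
  simp [h] at h'

omit H in
/-- No eigen-pair in the kernel of the degeneracy map. -/
theorem eq_zero_of_deg {W : WData N q} {i : ι} [NeZero (l i)] (haux : AuxPrime N q (l i))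
    (hne : residue O (a i) ^ 2 ≠ ((l i : ResidueField O) + 1) ^ 2)
    {x y : Additive (Gamma0 N) →+ ResidueField O} (hx : x ∈ parHom (Gamma0 N) (ResidueField O))
    (hy : y ∈ parHom (Gamma0 N) (ResidueField O)) (hd : W.deg x y = 0)
    (hex : shiftOp (ResidueField O) (l i) (residue O (a i)) x = 0)
    (hey : shiftOp (ResidueField O) (l i) (residue O (a i)) y = 0) : x = 0 ∧ y = 0 := by
  have key : ∀ u v : Additive (Gamma0 N) →+ ResidueField O,
      u ∈ parHom (Gamma0 N) (ResidueField O) → W.deg u v = 0 →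
      shiftOp (ResidueField O) (l i) (residue O (a i)) u = 0 → u = 0 := by
    intro u v hu huv he
    by_contra hu0
    refine hne (eigen_eq_of_deg_eq_zero (ℓ := l i) W haux hu huv hu0 (residue O (a i)) ?_)
    rw [shiftOp_apply, neg_smul, ← sub_eq_add_neg, sub_eq_zero] at he
    exact he.trans (smul_eq_comp _ _)
  have h1 := key x y hx hd hex
  subst h1
  have hres : resHom (gamma0_mul_le N q) y = 0 := by
    rw [WData.deg, show resHom (gamma0_mul_le N q) (0 : Additive (Gamma0 N) →+ ResidueField O) = 0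
      from AddMonoidHom.ext fun _ => rfl, zero_add] at hd
    rw [← W.wOp_wOp (resHom (gamma0_mul_le N q) y), hd]
    exact AddMonoidHom.ext fun _ => rfl
  refine ⟨rfl, key y 0 hy ?_ hey⟩
  rw [WData.deg, hres, zero_add]
  exact AddMonoidHom.ext fun _ => rfl

include hl in
/-- On the kernel of the degeneracy map some `T ℓ - a ℓ` is bijective. -/
theorem RaiseHyp.exists_bijective_on_ker (W : WData N q) :
    ∃ (i : ι) (_ : NeZero (l i)) (_ : ¬ l i ∣ N)
      (F : {x : (Additive (Gamma0 N) →+ ResidueField O) × (Additive (Gamma0 N) →+ ResidueField O) //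
          x.1 ∈ parHom (Gamma0 N) (ResidueField O) ∧ x.2 ∈ parHom (Gamma0 N) (ResidueField O) ∧
            W.deg x.1 x.2 = 0} →
        {x : (Additive (Gamma0 N) →+ ResidueField O) × (Additive (Gamma0 N) →+ ResidueField O) //
          x.1 ∈ parHom (Gamma0 N) (ResidueField O) ∧ x.2 ∈ parHom (Gamma0 N) (ResidueField O) ∧
            W.deg x.1 x.2 = 0}),
      Function.Bijective F ∧ ∀ m z, (F^[m] z).1 =
        ((shiftOp (ResidueField O) (l i) (residue O (a i)))^[m] z.1.1,
          (shiftOp (ResidueField O) (l i) (residue O (a i)))^[m] z.1.2) := by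
  obtain ⟨i, haux, hne⟩ := H.exists_aux hl W
  have : NeZero (l i) := ⟨(hl i).ne_zero⟩
  have hlNq : ¬ l i ∣ N * q := fun h => ((hl i).dvd_mul.mp h).elim haux.not_dvd_N fun h' =>
    haux.ne ((Nat.prime_dvd_prime_iff_eq (hl i) W.prime).mp h')
  set G := shiftOp (ResidueField O) (N := N) (l i) (residue O (a i)) with hG
  let F : {x : (Additive (Gamma0 N) →+ ResidueField O) × (Additive (Gamma0 N) →+ ResidueField O) //
          x.1 ∈ parHom (Gamma0 N) (ResidueField O) ∧ x.2 ∈ parHom (Gamma0 N) (ResidueField O) ∧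
            W.deg x.1 x.2 = 0} →
        {x : (Additive (Gamma0 N) →+ ResidueField O) × (Additive (Gamma0 N) →+ ResidueField O) //
          x.1 ∈ parHom (Gamma0 N) (ResidueField O) ∧ x.2 ∈ parHom (Gamma0 N) (ResidueField O) ∧
            W.deg x.1 x.2 = 0} := fun z =>
    ⟨(G z.1.1, G z.1.2), shiftOp_mem _ z.2.1, shiftOp_mem _ z.2.2.1, by
      have h0 := z.2.2.2
      simp only [WData.deg] at h0 ⊢
      simp only [hG, shiftOp_apply]
      rw [show ∀ u v : Additive (Gamma0 N) →+ ResidueField O, resHom (gamma0_mul_le N q) (u + v) =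
          resHom (gamma0_mul_le N q) u + resHom (gamma0_mul_le N q) v from
          fun _ _ => AddMonoidHom.ext fun _ => rfl,
        show ∀ u v : Additive (Gamma0 N) →+ ResidueField O, resHom (gamma0_mul_le N q) (u + v) =
          resHom (gamma0_mul_le N q) u + resHom (gamma0_mul_le N q) v from
          fun _ _ => AddMonoidHom.ext fun _ => rfl,
        show ∀ u v : Additive (Gamma0 (N * q)) →+ ResidueField O,
          W.wOp (u + v) = W.wOp u + W.wOp v from fun _ _ => AddMonoidHom.ext fun _ => rfl,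
        ← WData.heckeOp_resHom (hl i) hlNq, ← WData.heckeOp_resHom (hl i) hlNq,
        ← W.heckeOp_wOp (hl i) hlNq, add_add_add_comm, ← heckeOp_add, h0,
        show heckeOp (N * q) (l i) (0 : Additive (Gamma0 (N * q)) →+ ResidueField O) = 0 by
          simpa using (heckeOp_add (N := N * q) (A := ResidueField O) (l i) 0 0).symm, zero_add,
        show ∀ (c : ResidueField O) (u : Additive (Gamma0 N) →+ ResidueField O),
          resHom (gamma0_mul_le N q) (c • u) = c • resHom (gamma0_mul_le N q) u from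
          fun _ _ => AddMonoidHom.ext fun _ => rfl,
        show ∀ (c : ResidueField O) (u : Additive (Gamma0 N) →+ ResidueField O),
          resHom (gamma0_mul_le N q) (c • u) = c • resHom (gamma0_mul_le N q) u from
          fun _ _ => AddMonoidHom.ext fun _ => rfl,
        show ∀ (c : ResidueField O) (u : Additive (Gamma0 (N * q)) →+ ResidueField O),
          W.wOp (c • u) = c • W.wOp u from fun _ _ => AddMonoidHom.ext fun _ => rfl,
        ← smul_add, h0, smul_zero]⟩
  have hFv : ∀ z, (F z).1 = (G z.1.1, G z.1.2) := fun _ => rfl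
  have : Finite (Additive (Gamma0 N) →+ ResidueField O) := finite_hom _
  have hinj : Function.Injective F := fun z z' h => by
    have h' := congrArg Subtype.val h
    rw [hFv, hFv] at h'
    obtain ⟨h1, h2⟩ := Prod.mk_inj.mp h'
    have hd : W.deg (z.1.1 - z'.1.1) (z.1.2 - z'.1.2) = 0 := by
      have e := deg_add W (z.1.1 - z'.1.1) z'.1.1 (z.1.2 - z'.1.2) z'.1.2
      rw [sub_add_cancel, sub_add_cancel, z.2.2.2, z'.2.2.2, add_zero] at e
      exact e.symm
    obtain ⟨e1, e2⟩ := eq_zero_of_deg haux hne (sub_mem z.2.1 z'.2.1) (sub_mem z.2.2.1 z'.2.2.1) hd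
      (by rw [← hG, map_sub, h1, sub_self]) (by rw [← hG, map_sub, h2, sub_self])
    exact Subtype.ext (Prod.ext (sub_eq_zero.mp e1) (sub_eq_zero.mp e2))
  refine ⟨i, inferInstance, haux.not_dvd_N, F, ⟨hinj, Finite.injective_iff_surjective.mp hinj⟩,
    fun m => ?_⟩
  induction m with
  | zero => intro z; rfl
  | succ m ih =>
    intro z
    rw [Function.iterate_succ_apply, ih, hFv, Function.iterate_succ_apply,
      Function.iterate_succ_apply]

/-- **Ihara's lemma on the part, modulo the maximal ideal.** -/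
theorem RaiseHyp.ihara_mod (W : WData N q) {x y : Coh N trivChar O}
    (hx : x ∈ cohPart trivChar (one_dvd N) hl a) (hy : y ∈ cohPart trivChar (one_dvd N) hl a)
    (h : ∀ γ : gammaH (N * q) trivChar, (resB O trivChar (dvd_mul_right N q) x +
      opW O W trivChar (one_dvd N) (resB O trivChar (dvd_mul_right N q) y)) (Additive.ofMul γ) ∈
        maximalIdeal O) :
    (∀ γ : gammaH N trivChar, x (Additive.ofMul γ) ∈ maximalIdeal O) ∧
      ∀ γ : gammaH N trivChar, y (Additive.ofMul γ) ∈ maximalIdeal O := by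
  obtain ⟨i, hi, hiN, F, hF, hFv⟩ := H.exists_bijective_on_ker hl W
  have hd : W.deg (redG0 O N x) (redG0 O N y) = 0 := by
    rw [WData.deg, ← redG0_resB, ← redG0_resB, ← redG0_opW W, ← map_add]
    exact redG0_eq_zero_iff.mpr h
  have hd0 : W.deg (0 : Additive (Gamma0 N) →+ ResidueField O) 0 = 0 := by
    have e := deg_add (k := ResidueField O) W 0 0 0 0
    rw [add_zero] at e
    exact left_eq_add.mp e
  obtain ⟨m₁, h₁⟩ := exists_iterate_redG0_eq_zero hl i hiN hx
  obtain ⟨m₂, h₂⟩ := exists_iterate_redG0_eq_zero hl i hiN hy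
  have h0 := hF.1.iterate (m₁ + m₂)
    (a₁ := ⟨(redG0 O N x, redG0 O N y), H.redG0_mem_parMod hl hx, H.redG0_mem_parMod hl hy, hd⟩)
    (a₂ := ⟨(0, 0), zero_mem _, zero_mem _, hd0⟩) (Subtype.ext (by
      rw [hFv, hFv]
      simp only [shiftOp_iterate_zero]
      refine Prod.ext ?_ ?_
      · show (shiftOp (ResidueField O) (l i) (residue O (a i)))^[m₁ + m₂] _ = 0
        rw [add_comm, Function.iterate_add_apply, h₁, shiftOp_iterate_zero]
      · show (shiftOp (ResidueField O) (l i) (residue O (a i)))^[m₁ + m₂] _ = 0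
        rw [Function.iterate_add_apply, h₂, shiftOp_iterate_zero]))
  obtain ⟨e1, e2⟩ := Prod.mk_inj.mp (congrArg Subtype.val h0)
  exact ⟨redG0_eq_zero_iff.mp e1, redG0_eq_zero_iff.mp e2⟩

set_option backward.isDefEq.respectTransparency false in
/-- The adjoint hits the reduction of any pair from the part. -/
theorem RaiseHyp.exists_adjLin_eq (W : WData N q) {v w : Coh N trivChar O}
    (hv : v ∈ cohPart trivChar (one_dvd N) hl a) (hw : w ∈ cohPart trivChar (one_dvd N) hl a) :
    (⟨_, H.redG0_mem_parMod hl hv⟩, ⟨_, H.redG0_mem_parMod hl hw⟩) ∈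
      LinearMap.range (adjLin (k := ResidueField O) W) := by
  have h2 := H.two_ne
  have hn := neg_one_mem_gamma0
  have : Finite (Additive (Gamma0 N) →+ ResidueField O) := finite_hom _
  have : Finite (parMod (ResidueField O) (Gamma0 N)) := Subtype.finite
  set b := pairMod (Γ := Gamma0 N) (hn N) h2
  refine mem_range_prod_of_orthogonal b (fun x hx => pairMod_eq_zero (hn N) h2 hx)
    (adjLin (k := ResidueField O) W) _ fun x hx => ?_
  have hd : W.deg x.1.1 x.2.1 = 0 :=
    eq_zero_of_pairing_eq_zero (hn _) h2 (W.deg_mem_parHom x.1.2 x.2.2) fun z hz =>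
      (W.pairing_deg h2 x.1.2 x.2.2 hz).trans (hx ⟨z, hz⟩)
  obtain ⟨i, hi, hiN, F, hF, hFv⟩ := H.exists_bijective_on_ker hl W
  obtain ⟨m₁, h₁⟩ := exists_iterate_redG0_eq_zero hl i hiN hv
  obtain ⟨m₂, h₂'⟩ := exists_iterate_redG0_eq_zero hl i hiN hw
  obtain ⟨z, hz⟩ := hF.2.iterate (m₁ + m₂) ⟨(x.1.1, x.2.1), x.1.2, x.2.2, hd⟩
  have hx' := congrArg Subtype.val hz
  rw [hFv] at hx'
  obtain ⟨e1, e2⟩ := Prod.mk_inj.mp hx'
  have hzero : ∀ u : parMod (ResidueField O) (Gamma0 N), pairing u.1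
      (0 : Additive (Gamma0 N) →+ ResidueField O) = 0 := fun u => (b u).map_zero
  show pairing x.1.1 (redG0 O N v) + pairing x.2.1 (redG0 O N w) = 0
  rw [← e1, ← e2, pairing_iterate_shiftOp _ h2 (hl i) hiN _ z.2.1 (H.redG0_mem_parMod hl hv),
    pairing_iterate_shiftOp _ h2 (hl i) hiN _ z.2.2.1 (H.redG0_mem_parMod hl hw),
    show m₁ + m₂ = m₂ + m₁ from add_comm _ _, Function.iterate_add_apply, h₁,
    shiftOp_iterate_zero, show m₂ + m₁ = m₁ + m₂ from add_comm _ _, Function.iterate_add_apply, h₂',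
    shiftOp_iterate_zero, hzero ⟨_, z.2.1⟩, hzero ⟨_, z.2.2.1⟩, add_zero]

/-- **Surjectivity of the adjoint degeneracy map on the part.** -/
theorem RaiseHyp.exists_coresB_eq (W : WData N q) {v w : Coh N trivChar O}
    (hv : v ∈ cohPart trivChar (one_dvd N) hl a) (hw : w ∈ cohPart trivChar (one_dvd N) hl a) :
    ∃ z ∈ cohPart trivChar (one_dvd (N * q)) hl a,
      coresB O W trivChar (one_dvd N) z = v ∧
        coresB O W trivChar (one_dvd N) (opW O W trivChar (one_dvd N) z) = w := by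
  have := moduleFinite_coh (χ := trivChar) O O (one_dvd N)
  have := isNoetherian_of_isNoetherianRing_of_finite O (Coh N trivChar O × Coh N trivChar O)
  obtain ⟨ϖ, hϖ⟩ := IsDiscreteValuationRing.exists_irreducible O
  set Φ := (coresB O W trivChar (one_dvd N) (A := O)).prod
    ((coresB O W trivChar (one_dvd N)).comp (opW O W trivChar (one_dvd N)))
  have key : (cohPart trivChar (one_dvd N) hl a).prod (cohPart trivChar (one_dvd N) hl a) ≤
      (cohPart trivChar (one_dvd (N * q)) hl a).map Φ := by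
    refine Submodule.le_of_le_smul_of_le_jacobson_bot (IsNoetherian.noetherian _)
      (le_of_eq (jacobson_eq_maximalIdeal ⊥ bot_ne_top).symm) ?_
    rintro ⟨v, w⟩ ⟨hv, hw⟩
    obtain ⟨z, hz⟩ := H.exists_adjLin_eq hl W hv hw
    obtain ⟨ψ, -, hψz⟩ := exists_parHom_lift (neg_one_mem_gamma0 (N * q)) H.two_ne
      (fun r hr => H.two.mul_right_eq_zero.mp hr) (residue O) residue_surjective z.2
    set Z := (toG0 (N * q)).symm ψ
    have hZ : redG0 O (N * q) Z = z.1 := by rw [redG0_def, AddEquiv.apply_symm_apply, hψz]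
    set z' := cohProj trivChar (one_dvd (N * q)) hl a Z
    have hcv : ∀ ψ' : Coh (N * q) trivChar O, cohProj trivChar (one_dvd N) hl a
        (coresB O W trivChar (one_dvd N) ψ') =
        coresB O W trivChar (one_dvd N) (cohProj trivChar (one_dvd (N * q)) hl a ψ') := fun ψ' =>
      (cohProj_map (one_dvd (N * q)) hl a (one_dvd N) _
        (fun i φ => coresB_opP W (one_dvd N) (hl i) (H.ne i) φ) ψ').symm
    have hcw : Commute (opW O W trivChar (one_dvd N))
        (cohProj trivChar (one_dvd (N * q)) hl a) :=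
      commute_cohProj _ hl a fun i => opW_opP W (one_dvd N) (hl i) (H.ne i)
    have hdiff : ∀ (u : Coh N trivChar O) (ψ' : Coh (N * q) trivChar O),
        u ∈ cohPart trivChar (one_dvd N) hl a →
        redG0 O N (coresB O W trivChar (one_dvd N) ψ') = redG0 O N u →
        ∃ u' ∈ cohPart trivChar (one_dvd N) hl a,
          u = coresB O W trivChar (one_dvd N) (cohProj trivChar (one_dvd (N * q)) hl a ψ') +
            ϖ • u' := by
      intro u ψ' hu hred
      obtain ⟨u', hu'⟩ := exists_eq_smul_of_forall_mem hϖ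
        (redG0_eq_zero_iff.mp (show redG0 O N (u - coresB O W trivChar (one_dvd N) ψ') = 0 by
          rw [map_sub, hred, sub_self]))
      refine ⟨_, cohProj_mem (one_dvd N) hl a u', ?_⟩
      rw [← map_smul, ← hu', ← hcv, map_sub, (mem_cohPart_iff _ hl a).mp hu, add_sub_cancel]
    obtain ⟨v', hv', ev⟩ := hdiff v Z hv (by
      rw [redG0_coresB, hZ]; exact congrArg (fun t => (Prod.fst t).1) hz)
    obtain ⟨w', hw', ew⟩ := hdiff w (opW O W trivChar (one_dvd N) Z) hw (by
      rw [redG0_coresB, redG0_opW, hZ]; exact congrArg (fun t => (Prod.snd t).1) hz)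
    rw [← Module.End.mul_apply, ← hcw.eq, Module.End.mul_apply] at ew
    have hsplit : (v, w) = Φ z' + ϖ • (v', w') := Prod.ext ev ew
    rw [hsplit]
    exact Submodule.add_mem_sup ⟨z', cohProj_mem _ hl a Z, rfl⟩
      (Submodule.smul_mem_smul (hϖ.maximalIdeal_eq ▸ Ideal.mem_span_singleton_self ϖ) ⟨hv', hw'⟩)
  obtain ⟨z, hz, hzvw⟩ := key (show (v, w) ∈ _ from ⟨hv, hw⟩)
  exact ⟨z, hz, congrArg Prod.fst hzvw, congrArg Prod.snd hzvw⟩

end FLTAgent.RT
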