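import Fermat.Agent.RT.Coh.Free

/-!
# Nakayama for pairs of classes of the part
-/

set_option autoImplicit false

noncomputable section

namespace FLTAgent.RT

open LevelRaise CongruenceSubgroup IsLocalRing

/-- In odd prime power order `p ^ k`, `(x - 1) ^ (p ^ k)` is `x ^ (p ^ k) - 1` modulo `p`. -/
theorem exists_sub_one_pow {p : ℕ} (hp : p.Prime) (k : ℕ) :
    ∃ r : Polynomial ℤ, (Polynomial.X - 1) ^ p ^ k =
      Polynomial.X ^ p ^ k - 1 - (p : Polynomial ℤ) * r := by
  obtain ⟨r, hr⟩ := exists_add_pow_prime_pow_eq hp ((Polynomial.X : Polynomial ℤ) - 1) 1 k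
  refine ⟨(Polynomial.X - 1) * 1 * r, ?_⟩
  rw [sub_add_cancel, one_pow] at hr
  linear_combination -hr

variable {M N : ℕ} {D : Type*} [CommGroup D] [Fintype D] {χ : (ZMod M)ˣ →* D}
  [Fact (Odd (Nat.card D))] [NeZero N] {O : Type*} [CommRing O] [IsDomain O]
  [IsDiscreteValuationRing O] [IsAdicComplete (maximalIdeal O) O] [Finite (ResidueField O)]
  [CharZero O] {ι : Type*} {l : ι → ℕ} (hMN : M ∣ N) (hχ : Function.Surjective χ)
  (hl : ∀ i, (l i).Prime) (a : ι → O) (p : ℕ) [Fact p.Prime] (hD : IsPGroup p D)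
  (hp : (p : O) ∈ maximalIdeal O)

include hD hp in
/-- A submodule of pairs from the part, stable under the diamonds, which surjects under
corestriction onto the pairs from the part of `Γ₀(N)`, is everything. -/
theorem prod_le_of_coresC (he : EllCond χ N) (Q : Submodule O (Coh N χ O × Coh N χ O))
    (hQ : Q ≤ (cohPart χ hMN hl a).prod (cohPart χ hMN hl a))
    (hQD : ∀ δ, ∀ u ∈ Q, (diamond O O χ hMN hχ δ u.1, diamond O O χ hMN hχ δ u.2) ∈ Q)
    (h : ∀ u ∈ (cohPart χ hMN hl a).prod (cohPart χ hMN hl a), ∃ w ∈ Q,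
      coresC O χ hMN hχ w.1 = coresC O χ hMN hχ u.1 ∧
        coresC O χ hMN hχ w.2 = coresC O χ hMN hχ u.2) :
    (cohPart χ hMN hl a).prod (cohPart χ hMN hl a) ≤ Q := by
  classical
  have := moduleFinite_coh (χ := χ) O O hMN
  have := isNoetherian_of_isNoetherianRing_of_finite O (Coh N χ O × Coh N χ O)
  set P := (cohPart χ hMN hl a).prod (cohPart χ hMN hl a)
  set Δ : D → Module.End O (Coh N χ O × Coh N χ O) := fun δ =>
    (diamond O O χ hMN hχ δ).prodMap (diamond O O χ hMN hχ δ)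
  set X : D → Module.End O (Coh N χ O × Coh N χ O) := fun δ => Δ δ - 1
  have hΔP : ∀ δ, ∀ u ∈ P, Δ δ u ∈ P := fun δ u hu =>
    ⟨diamond_mem_cohPart hMN hχ hl δ hu.1, diamond_mem_cohPart hMN hχ hl δ hu.2⟩
  have hP : ∀ δ, P.map (X δ) ≤ P := fun δ => by
    rintro _ ⟨x, hx, rfl⟩
    exact P.sub_mem (hΔP δ x hx) hx
  refine Submodule.le_of_le_smul_of_le_jacobson_bot (IsNoetherian.noetherian _)
    (le_of_eq (jacobson_eq_maximalIdeal ⊥ bot_ne_top).symm) ?_
  refine le_of_le_sup_map X (fun δ ε => ?_) P hP Finset.univ _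
    (sup_le hQ Submodule.smul_le_right) (fun δ => ?_) (fun δ _ => ?_) ?_
  · have h1 : Commute (Δ δ) (Δ ε) := by
      have h := ((Commute.all δ ε).map (diamond O O χ hMN hχ)).eq
      refine LinearMap.ext fun x => Prod.ext ?_ ?_
      · exact LinearMap.congr_fun h x.1
      · exact LinearMap.congr_fun h x.2
    exact (h1.sub_left (Commute.one_left _)).sub_right
      ((Commute.one_right _).sub_left (Commute.one_left _))
  · rw [Submodule.map_sup, Submodule.map_smul'']
    refine sup_le_sup ?_ (Submodule.smul_mono le_rfl (hP δ))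
    rintro _ ⟨x, hx, rfl⟩
    exact Q.sub_mem (hQD δ x hx) hx
  · obtain ⟨k, hk⟩ := hD δ
    refine ⟨p ^ k, ?_⟩
    obtain ⟨r, hr⟩ := exists_sub_one_pow (Fact.out : p.Prime) k
    have e := congrArg (Polynomial.aeval (Δ δ)) hr
    simp only [map_pow, map_sub, map_mul, map_one, map_natCast, Polynomial.aeval_X] at e
    have hΔk : Δ δ ^ p ^ k = 1 := by
      refine LinearMap.ext fun x => ?_
      have h1 : ∀ j, Δ δ ^ j = Δ (δ ^ j) := fun j => by
        induction j with
        | zero =>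
          refine LinearMap.ext fun x => Prod.ext ?_ ?_ <;> simp [Δ]
        | succ j ih =>
          refine LinearMap.ext fun x => Prod.ext ?_ ?_ <;>
            simp [pow_succ, ih, Δ, map_mul]
      rw [h1, hk]
      refine Prod.ext ?_ ?_ <;> simp [Δ]
    rw [hΔk, sub_self, zero_sub] at e
    rintro _ ⟨x, hx, rfl⟩
    refine Submodule.mem_sup_right ?_
    have hst : ∀ (j : ℕ), (X δ ^ j) x ∈ P := fun j => by
      induction j with
      | zero => exact hx
      | succ j ih => rw [pow_succ', Module.End.mul_apply]; exact hP δ ⟨_, ih, rfl⟩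
    have hE : ∀ v ∈ P, (cohProj χ hMN hl a v.1, cohProj χ hMN hl a v.2) = v := fun v hv =>
      Prod.ext ((mem_cohPart_iff hMN hl a).mp hv.1) ((mem_cohPart_iff hMN hl a).mp hv.2)
    rw [← hE _ (hst (p ^ k)), show (X δ ^ p ^ k) x = -((p : O) • Polynomial.aeval (Δ δ) r x) by
      rw [show X δ = Δ δ - 1 from rfl, e, LinearMap.neg_apply, Module.End.mul_apply,
        Module.End.natCast_apply, Nat.cast_smul_eq_nsmul]]
    simp only [Prod.fst_neg, Prod.snd_neg, Prod.smul_fst, Prod.smul_snd, map_neg, map_smul]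
    rw [← Prod.neg_mk, ← Prod.smul_mk]
    exact neg_mem (Submodule.smul_mem_smul hp ⟨cohProj_mem hMN hl a _, cohProj_mem hMN hl a _⟩)
  · intro u hu
    obtain ⟨w, hw, h1, h2⟩ := h u hu
    have hd := P.sub_mem hu (hQ hw)
    obtain ⟨ψ₁, hψ₁, e₁⟩ := (coresC_eq_zero_iff hMN hχ hl he hd.1).mp (by
      show coresC O χ hMN hχ (u.1 - w.1) = 0
      rw [map_sub, h1, sub_self])
    obtain ⟨ψ₂, hψ₂, e₂⟩ := (coresC_eq_zero_iff hMN hχ hl he hd.2).mp (by
      show coresC O χ hMN hχ (u.2 - w.2) = 0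
      rw [map_sub, h2, sub_self])
    rw [← add_sub_cancel w u,
      show u - w = ∑ δ, X δ (ψ₁ δ, ψ₂ δ) from Prod.ext
        (by rw [Prod.fst_sum]; exact e₁) (by rw [Prod.snd_sum]; exact e₂)]
    refine Submodule.add_mem_sup (Submodule.mem_sup_left hw) (sum_mem fun δ _ => ?_)
    exact Submodule.mem_iSup_of_mem δ (Submodule.mem_iSup_of_mem (Finset.mem_univ δ)
      ⟨_, ⟨hψ₁ δ, hψ₂ δ⟩, rfl⟩)

end FLTAgent.RT
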