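import Fermat.Agent.RT.Coh.Free

/-!
# Corestriction to `Γ₀` commutes with the degeneracy maps
-/

set_option autoImplicit false

noncomputable section

namespace FLTAgent.RT

open LevelRaise CongruenceSubgroup
open scoped MatrixGroups

variable {M N q : ℕ} {D : Type*} [CommGroup D] {χ : (ZMod M)ˣ →* D} [Fact (Odd (Nat.card D))]
  [NeZero N] [NeZero q] (W : WData N q) {A : Type*} [AddCommGroup A] {R : Type*} [CommRing R]
  [Module R A]

omit [Fact (Odd (Nat.card D))] [NeZero N] [NeZero q] in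
theorem resC_resB (φ : Coh N trivChar A) :
    resB R χ (dvd_mul_right N q) (resC R (dvd_refl N) (fun _ h => h.toTriv) φ) =
      resC R (dvd_refl (N * q)) (fun _ h => h.toTriv) (resB R trivChar (dvd_mul_right N q) φ) := by
  refine AddMonoidHom.ext fun γ => ?_
  obtain ⟨γ, rfl⟩ := Additive.ofMul.surjective γ
  rw [resB_apply_apply, resC_apply_apply, resC_apply_apply, resB_apply_apply]

theorem resC_coresB (hMN : M ∣ N) (φ : Coh (N * q) trivChar A) :
    coresB R W χ hMN (resC R (dvd_refl (N * q)) (fun _ h => h.toTriv) φ) =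
      resC R (dvd_refl N) (fun _ h => h.toTriv) (coresB R W trivChar (one_dvd N) φ) := by
  simp only [coresB, resC, famTransferL_apply]
  refine famTransfer_comm_of_cover _ _ _ _ ?_ (by simp) (fun _ i => ?_) φ
  · rintro ⟨_, i⟩ ⟨_, j⟩ δ h
    simp only [famMul, Matrix.one_mul] at h
    obtain ⟨g, r, hr, hi⟩ := exists_balCos (χ := χ) W i hMN
    obtain ⟨g', r', hr', hj⟩ := exists_balCos (χ := χ) W j hMN
    refine Prod.ext rfl (W.rep_injective i j ?_)
    have e : (r : SL(2, ℤ)) = δ * r' := Subtype.ext (by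
      show matSL (r : SL(2, ℤ)) = matSL ((δ : SL(2, ℤ)) * r')
      rw [← hi, h, hj, matSL_mul])
    have e' : (W.rep i : SL(2, ℤ)) * (W.rep j : SL(2, ℤ))⁻¹ = (g : SL(2, ℤ))⁻¹ * δ * g' := by
      rw [hr, hr', ← mul_assoc] at e
      rw [mul_inv_eq_iff_eq_mul, mul_assoc, mul_assoc, eq_inv_mul_iff_mul_eq, ← mul_assoc]
      exact e
    rw [e']
    exact (Gamma0 _).mul_mem ((Gamma0 _).mul_mem ((Gamma0 _).inv_mem g.2) δ.2.1) g'.2
  · obtain ⟨g, r, -, hi⟩ := exists_balCos (χ := χ) W i hMN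
    obtain ⟨j, δ, hj⟩ := exists_balCos_cover W (one_dvd N) (χ := trivChar)
      ⟨r, gammaH_le_triv r.2⟩
    exact ⟨j, (), δ, by rw [Matrix.one_mul, hi, Matrix.mul_one, hj]⟩

omit [NeZero q] in
theorem resC_opW (hMN : M ∣ N) (φ : Coh (N * q) trivChar A) :
    opW R W χ hMN (resC R (dvd_refl (N * q)) (fun _ h => h.toTriv) φ) =
      resC R (dvd_refl (N * q)) (fun _ h => h.toTriv) (opW R W trivChar (one_dvd N) φ) := by
  simp only [opW, resC, famTransferL_apply]
  refine famTransfer_comm_of_cover _ _ _ _ (fun x y _ _ => Subsingleton.elim x y) (by simp)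
    (fun _ _ => ?_) φ
  obtain ⟨g, hg, -⟩ := exists_balW (χ := χ) W hMN
  obtain ⟨g', hg', -⟩ := exists_balW (χ := trivChar) W (one_dvd N)
  refine ⟨(), (), ⟨((g * g'⁻¹ : Gamma0 (N * q)) : SL(2, ℤ)),
    (gammaH_trivChar (N * q)).ge (g * g'⁻¹ : Gamma0 (N * q)).2⟩, ?_⟩
  rw [Matrix.one_mul, Matrix.mul_one, hg, hg', Subgroup.coe_mul, Subgroup.coe_inv, matSL_mul,
    Matrix.mul_assoc, matSL_inv_mul_cancel]

omit [NeZero N] in
/-- Restriction from `Γ₀(N)` is injective on torsion-free coefficients. -/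
theorem resC_injective [Fintype D] [IsAddTorsionFree A] (hMN : M ∣ N) :
    Function.Injective
      (resC R (dvd_refl N) (fun _ h => h.toTriv) : Coh N trivChar A →ₗ[R] Coh N χ A) := by
  rw [injective_iff_map_eq_zero]
  intro φ hφ
  refine AddMonoidHom.ext fun γ => ?_
  obtain ⟨γ, rfl⟩ := Additive.ofMul.surjective γ
  have hmem : ((γ ^ Fintype.card D : gammaH N trivChar) : SL(2, ℤ)) ∈ gammaH N χ := by
    rw [mem_gammaH_iff_dChar hMN, map_pow, pow_card_eq_one]
  have h := DFunLike.congr_fun hφ (Additive.ofMul (⟨_, hmem⟩ : gammaH N χ))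
  rw [resC_apply_apply, AddMonoidHom.zero_apply] at h
  rw [AddMonoidHom.zero_apply]
  refine (smul_eq_zero_iff_right (Fintype.card_ne_zero (α := D))).mp ?_
  rw [← map_nsmul, ← ofMul_pow]
  exact h

variable [Fintype D] [IsAddTorsionFree A] (hMN : M ∣ N) (hχ : Function.Surjective χ)

omit [NeZero q] in
theorem coresC_resB [NeZero (N * q)] (φ : Coh N χ A) :
    coresC R χ (hMN.trans (dvd_mul_right N q)) hχ (resB R χ (dvd_mul_right N q) φ) =
      resB R trivChar (dvd_mul_right N q) (coresC R χ hMN hχ φ) := by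
  refine resC_injective (R := R) (D := D) (χ := χ) (hMN.trans (dvd_mul_right N q)) ?_
  rw [resC_coresC, ← resC_resB, resC_coresC, map_sum]
  exact Finset.sum_congr rfl fun δ _ => resB_diamond R hMN (dvd_mul_right N q) hχ δ φ

theorem coresC_coresB (φ : Coh (N * q) χ A) :
    coresC R χ hMN hχ (coresB R W χ hMN φ) =
      coresB R W trivChar (one_dvd N) (coresC R χ (hMN.trans (dvd_mul_right N q)) hχ φ) := by
  refine resC_injective (R := R) (D := D) (χ := χ) hMN ?_
  rw [resC_coresC, ← resC_coresB W hMN, resC_coresC, map_sum]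
  exact Finset.sum_congr rfl fun δ _ => (coresB_diamond R W hMN hχ δ φ).symm

theorem coresC_opW (φ : Coh (N * q) χ A) :
    coresC R χ (hMN.trans (dvd_mul_right N q)) hχ (opW R W χ hMN φ) =
      opW R W trivChar (one_dvd N) (coresC R χ (hMN.trans (dvd_mul_right N q)) hχ φ) := by
  refine resC_injective (R := R) (D := D) (χ := χ) (hMN.trans (dvd_mul_right N q)) ?_
  rw [resC_coresC, ← resC_opW W hMN, resC_coresC, map_sum]
  exact Finset.sum_congr rfl fun δ _ => (LinearMap.congr_fun (opW_diamond R W hMN hχ δ).eq φ).symm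

omit [Fintype D] [Fact (Odd (Nat.card D))] in
theorem EllCond.mul_level (he : EllCond χ N) (q : ℕ) [NeZero q] : EllCond χ (N * q) := by
  refine he.imp id fun h => ?_
  rw [ModularCurve.nuThree, Nat.card_eq_zero] at h ⊢
  refine Or.inl ⟨fun x => ?_⟩
  rcases h with h | h
  · refine h.false ⟨ZMod.castHom (dvd_mul_right N q) (ZMod N) x.1, ?_⟩
    have := congrArg (ZMod.castHom (dvd_mul_right N q) (ZMod N)) x.2
    simpa using this
  · exact not_finite {x : ZMod N // x ^ 2 + x + 1 = 0}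

end FLTAgent.RT
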