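import Fermat.Agent.RT.Ihara.Base
import Fermat.Agent.RT.Ihara.CharBridge
import Fermat.Agent.RT.Ihara.Aug

/-!
# The degeneracy maps on the part, with a character of `p`-power order

The adjoint degeneracy map is surjective and the degeneracy map has a left inverse commuting with
the diamonds.
-/

set_option autoImplicit false

noncomputable section

namespace FLTAgent.RT

open LevelRaise CongruenceSubgroup IsLocalRing
open scoped MatrixGroups

/-- A linear map whose image is saturated for a uniformiser has a left inverse. -/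
theorem exists_leftInverse_of_saturated {O P Q : Type*} [CommRing O] [IsDomain O]
    [IsDiscreteValuationRing O] [IsAdicComplete (maximalIdeal O) O] [Finite (ResidueField O)]
    [AddCommGroup P] [Module O P] [Module.Finite O P] [AddCommGroup Q] [Module O Q]
    [Module.Finite O Q] [Module.IsTorsionFree O Q] {ϖ : O} (hϖ : Irreducible ϖ) (f : P →ₗ[O] Q)
    (h : ∀ x y, f x = ϖ • y → ∃ x', x = ϖ • x') :
    ∃ g : Q →ₗ[O] P, ∀ x, g (f x) = x := by
  have hf : Function.Injective f := by
    rw [injective_iff_map_eq_zero]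
    have key : ∀ n x, f x = 0 → x ∈ maximalIdeal O ^ n • (⊤ : Submodule O P) := by
      intro n
      induction n with
      | zero => intro x _; simp
      | succ n ih =>
        intro x hx
        obtain ⟨x', rfl⟩ := h x 0 (by rw [hx, smul_zero])
        rw [map_smul] at hx
        rw [pow_succ', Submodule.mul_smul]
        exact Submodule.smul_mem_smul (hϖ.maximalIdeal_eq ▸ Ideal.mem_span_singleton_self ϖ)
          (ih x' ((smul_eq_zero.mp hx).resolve_left hϖ.ne_zero))
    exact fun x hx => eq_zero_of_forall_mem_pow (O := O) fun n => key n x hx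
  have hsat : ∀ (n : ℕ) (y : Q), ϖ ^ n • y ∈ LinearMap.range f → y ∈ LinearMap.range f := by
    intro n
    induction n with
    | zero => intro y hy; rwa [pow_zero, one_smul] at hy
    | succ n ih =>
      intro y hy
      rw [pow_succ', mul_smul] at hy
      obtain ⟨x, hx⟩ := hy
      obtain ⟨x', rfl⟩ := h x _ hx
      rw [map_smul] at hx
      exact ih y ⟨x', smul_right_injective Q hϖ.ne_zero hx⟩
  have : Module.IsTorsionFree O (Q ⧸ LinearMap.range f) := by
    rw [Module.isTorsionFree_iff_smul_eq_zero]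
    intro c y hcy
    obtain ⟨y, rfl⟩ := Submodule.Quotient.mk_surjective _ y
    by_cases hc : c = 0
    · exact Or.inl hc
    obtain ⟨n, u, rfl⟩ := IsDiscreteValuationRing.eq_unit_mul_pow_irreducible hc hϖ
    refine Or.inr ((Submodule.Quotient.mk_eq_zero _).mpr (hsat n y ?_))
    rw [← Submodule.Quotient.mk_smul, Submodule.Quotient.mk_eq_zero, mul_smul] at hcy
    have := (LinearMap.range f).smul_mem (↑u⁻¹ : O) hcy
    rwa [smul_smul, Units.inv_mul, one_smul] at this
  have : Module.Free O (Q ⧸ LinearMap.range f) := inferInstance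
  obtain ⟨σ, hσ⟩ := Module.projective_lifting_property (LinearMap.range f).mkQ LinearMap.id
    (Submodule.mkQ_surjective _)
  have hmem : ∀ y, (LinearMap.id (R := O) (M := Q) - σ.comp (LinearMap.range f).mkQ) y ∈
      LinearMap.range f := by
    intro y
    rw [← Submodule.Quotient.mk_eq_zero]
    show (LinearMap.range f).mkQ (y - σ ((LinearMap.range f).mkQ y)) = 0
    rw [map_sub, show (LinearMap.range f).mkQ (σ ((LinearMap.range f).mkQ y)) = (LinearMap.range f).mkQ y
      from LinearMap.congr_fun hσ _, sub_self]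
  refine ⟨(LinearEquiv.ofInjective f hf).symm.toLinearMap.comp (LinearMap.codRestrict _ _ hmem),
    fun x => ?_⟩
  apply hf
  show f ((LinearEquiv.ofInjective f hf).symm ⟨_, hmem (f x)⟩) = f x
  rw [LinearEquiv.ofInjective_symm_apply]
  show f x - σ ((LinearMap.range f).mkQ (f x)) = f x
  rw [show (LinearMap.range f).mkQ (f x) = 0 from (Submodule.Quotient.mk_eq_zero _).mpr ⟨x, rfl⟩,
    map_zero, sub_zero]

variable {M N q : ℕ} {D : Type*} [CommGroup D] [Fintype D] {χ : (ZMod M)ˣ →* D}
  [Fact (Odd (Nat.card D))] [NeZero N] [NeZero q] {O : Type*} [CommRing O] [IsDomain O]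
  [IsDiscreteValuationRing O] [IsAdicComplete (maximalIdeal O) O] [Finite (ResidueField O)]
  [CharZero O] {ι : Type*} {l : ι → ℕ} {a : ι → O} (W : WData N q) (hMN : M ∣ N)

/-- The degeneracy map from two copies of level `N` to level `N q`. -/
def degB (χ : (ZMod M)ˣ →* D) (hMN : M ∣ N) :
    Coh N χ O × Coh N χ O →ₗ[O] Coh (N * q) χ O :=
  (resB O χ (dvd_mul_right N q)).coprod ((opW O W χ hMN).comp (resB O χ (dvd_mul_right N q)))

/-- Its adjoint. -/
def adjB (χ : (ZMod M)ˣ →* D) (hMN : M ∣ N) :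
    Coh (N * q) χ O →ₗ[O] Coh N χ O × Coh N χ O :=
  (coresB O W χ hMN).prod ((coresB O W χ hMN).comp (opW O W χ hMN))

omit [Fintype D] [IsAdicComplete (maximalIdeal O) O] [Finite (ResidueField O)] [CharZero O] in
theorem degB_apply (u : Coh N χ O × Coh N χ O) :
    degB W χ hMN u = resB O χ (dvd_mul_right N q) u.1 +
      opW O W χ hMN (resB O χ (dvd_mul_right N q) u.2) := rfl

omit [Fintype D] [IsAdicComplete (maximalIdeal O) O] [Finite (ResidueField O)] [CharZero O] in
theorem adjB_apply (z : Coh (N * q) χ O) :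
    adjB W χ hMN z = (coresB O W χ hMN z, coresB O W χ hMN (opW O W χ hMN z)) := rfl

omit [Fintype D] [IsAdicComplete (maximalIdeal O) O] [Finite (ResidueField O)] [CharZero O] in
/-- The composite of the two maps. -/
theorem adjB_degB (u : Coh N χ O × Coh N χ O) :
    adjB W χ hMN (degB W χ hMN u) =
      ((q + 1) • u.1 + opT O O χ hMN W.prime W.not_dvd u.2,
        opT O O χ hMN W.prime W.not_dvd u.1 + (q + 1) • u.2) := by
  rw [adjB_apply, degB_apply, map_add, map_add, map_add, coresB_resB O W hMN,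
    coresB_opW_resB O W hMN, coresB_opW_resB O W hMN, opW_opW O W hMN, coresB_resB O W hMN]

variable (hl : ∀ i, (l i).Prime) (hne : ∀ i, l i ≠ q)

omit [Fintype D] [CharZero O] in
include hne in
theorem degB_mem_cohPart {u : Coh N χ O × Coh N χ O}
    (hu : u ∈ (cohPart χ hMN hl a).prod (cohPart χ hMN hl a)) :
    degB W χ hMN u ∈ cohPart χ (hMN.trans (dvd_mul_right N q)) hl a := by
  have hres : ∀ x ∈ cohPart χ hMN hl a, resB O χ (dvd_mul_right N q) x ∈
      cohPart χ (hMN.trans (dvd_mul_right N q)) hl a := fun x hx =>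
    map_mem_cohPart hMN hl a _ _ (fun i φ => (resB_opP hMN (dvd_mul_right N q) (hl i)
      (fun hd => ((hl i).dvd_mul.mp hd).resolve_right fun hq =>
        hne i ((Nat.prime_dvd_prime_iff_eq (hl i) W.prime).mp hq)) φ).symm) hx
  exact add_mem (hres _ hu.1)
    (mem_cohPart_of_commute _ hl a (fun i => opW_opP W hMN (hl i) (hne i)) (hres _ hu.2))

omit [Fintype D] [CharZero O] in
include hne in
theorem adjB_mem_cohPart {z : Coh (N * q) χ O}
    (hz : z ∈ cohPart χ (hMN.trans (dvd_mul_right N q)) hl a) :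
    adjB W χ hMN z ∈ (cohPart χ hMN hl a).prod (cohPart χ hMN hl a) :=
  have hc : ∀ z' ∈ cohPart χ (hMN.trans (dvd_mul_right N q)) hl a,
      coresB O W χ hMN z' ∈ cohPart χ hMN hl a := fun _ hz' =>
    map_mem_cohPart _ hl a hMN _ (fun i φ => coresB_opP W hMN (hl i) (hne i) φ) hz'
  ⟨hc _ hz, hc _ (mem_cohPart_of_commute _ hl a (fun i => opW_opP W hMN (hl i) (hne i)) hz)⟩

/-- On the part of `Γ₀(N)` the degeneracy map has a left inverse. -/
theorem RaiseHyp.exists_leftInverse_base (H : RaiseHyp N q l a) :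
    ∃ r : Coh (N * q) trivChar O →ₗ[O] Coh N trivChar O × Coh N trivChar O,
      (∀ z, r z ∈ (cohPart trivChar (one_dvd N) hl a).prod (cohPart trivChar (one_dvd N) hl a)) ∧
      ∀ u ∈ (cohPart trivChar (one_dvd N) hl a).prod (cohPart trivChar (one_dvd N) hl a),
        r (degB W trivChar (one_dvd N) u) = u := by
  obtain ⟨ϖ, hϖ⟩ := IsDiscreteValuationRing.exists_irreducible O
  have := moduleFinite_coh (χ := trivChar) O O (one_dvd N)
  have := moduleFinite_coh (χ := trivChar) O O (one_dvd (N * q))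
  have := isNoetherian_of_isNoetherianRing_of_finite O (Coh N trivChar O × Coh N trivChar O)
  have : Module.IsTorsionFree O (Coh (N * q) trivChar O) := Function.Injective.moduleIsTorsionFree
    (fun φ x => φ x) (fun _ _ h => DFunLike.ext' h) (fun _ _ => rfl)
  set P := (cohPart trivChar (one_dvd N) hl a).prod (cohPart trivChar (one_dvd N) hl a)
  obtain ⟨g, hg⟩ := exists_leftInverse_of_saturated hϖ
    ((degB W trivChar (one_dvd N)).comp P.subtype) (fun x y hxy => by
      obtain ⟨h1, h2⟩ := H.ihara_mod hl W x.2.1 x.2.2 fun γ => by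
        show degB W trivChar (one_dvd N) (x : Coh N trivChar O × Coh N trivChar O) _ ∈ _
        rw [show degB W trivChar (one_dvd N) (x : Coh N trivChar O × Coh N trivChar O) = ϖ • y
          from hxy]
        exact Ideal.mul_mem_right _ _ (hϖ.maximalIdeal_eq ▸ Ideal.mem_span_singleton_self ϖ)
      obtain ⟨x₁, e₁⟩ := exists_eq_smul_of_forall_mem hϖ h1
      obtain ⟨x₂, e₂⟩ := exists_eq_smul_of_forall_mem hϖ h2
      refine ⟨⟨(cohProj trivChar (one_dvd N) hl a x₁, cohProj trivChar (one_dvd N) hl a x₂),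
        cohProj_mem _ hl a _, cohProj_mem _ hl a _⟩, Subtype.ext (Prod.ext ?_ ?_)⟩
      · show x.1.1 = ϖ • cohProj trivChar (one_dvd N) hl a x₁
        rw [← map_smul, ← e₁, (mem_cohPart_iff _ hl a).mp x.2.1]
      · show x.1.2 = ϖ • cohProj trivChar (one_dvd N) hl a x₂
        rw [← map_smul, ← e₂, (mem_cohPart_iff _ hl a).mp x.2.2])
  exact ⟨P.subtype.comp g, fun z => (g z).2, fun u hu => congrArg Subtype.val (hg ⟨u, hu⟩)⟩

variable (hχ : Function.Surjective χ) (he : EllCond χ N) (p : ℕ) [Fact p.Prime]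
  (hD : IsPGroup p D) (hp : (p : O) ∈ maximalIdeal O) (H : RaiseHyp N q l a)
include hχ he hD hp H

/-- **Surjectivity of the adjoint degeneracy map on the part.** -/
theorem RaiseHyp.exists_adjB_eq {u : Coh N χ O × Coh N χ O}
    (hu : u ∈ (cohPart χ hMN hl a).prod (cohPart χ hMN hl a)) :
    ∃ z ∈ cohPart χ (hMN.trans (dvd_mul_right N q)) hl a, adjB W χ hMN z = u := by
  have := isAddTorsionFree_of_charZero (O := O)
  set hMN' := hMN.trans (dvd_mul_right N q)
  have key := prod_le_of_coresC hMN hχ hl a p hD hp he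
    ((cohPart χ hMN' hl a).map (adjB W χ hMN))
    (by rintro _ ⟨z, hz, rfl⟩; exact adjB_mem_cohPart W hMN hl H.ne hz)
    (by
      rintro δ _ ⟨z, hz, rfl⟩
      refine ⟨diamond O O χ hMN' hχ δ z, diamond_mem_cohPart hMN' hχ hl δ hz, ?_⟩
      rw [adjB_apply, adjB_apply, coresB_diamond O W hMN hχ,
        ← Module.End.mul_apply (opW O W χ hMN), (opW_diamond O W hMN hχ δ).eq,
        Module.End.mul_apply, coresB_diamond O W hMN hχ])
    (fun v hv => by
      obtain ⟨z₀, hz₀, h1, h2⟩ := H.exists_coresB_eq hl W (coresC_mem_cohPart hMN hχ hl hv.1)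
        (coresC_mem_cohPart hMN hχ hl hv.2)
      obtain ⟨z, hz, hzz⟩ := exists_coresC_eq_of_mem_cohPart hMN' hχ hl (he.mul_level q) hz₀
      refine ⟨_, ⟨z, hz, rfl⟩, ?_, ?_⟩
      · show coresC O χ hMN hχ (coresB O W χ hMN z) = _
        rw [coresC_coresB W hMN hχ, hzz, h1]
      · show coresC O χ hMN hχ (coresB O W χ hMN (opW O W χ hMN z)) = _
        rw [coresC_coresB W hMN hχ, coresC_opW W hMN hχ, hzz, h2])
  exact key hu

/-- **The degeneracy map has a left inverse on the part, commuting with the diamonds.** -/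
theorem RaiseHyp.exists_leftInverse :
    ∃ r : Coh (N * q) χ O →ₗ[O] Coh N χ O × Coh N χ O,
      (∀ z, r z ∈ (cohPart χ hMN hl a).prod (cohPart χ hMN hl a)) ∧
      (∀ δ z, r (diamond O O χ (hMN.trans (dvd_mul_right N q)) hχ δ z) =
        (diamond O O χ hMN hχ δ (r z).1, diamond O O χ hMN hχ δ (r z).2)) ∧
      ∀ u ∈ (cohPart χ hMN hl a).prod (cohPart χ hMN hl a), r (degB W χ hMN u) = u := by
  classical
  have := isAddTorsionFree_of_charZero (O := O)
  have := moduleFinite_coh (χ := χ) O O hMN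
  have := isNoetherian_of_isNoetherianRing_of_finite O (Coh N χ O × Coh N χ O)
  set hMN' := hMN.trans (dvd_mul_right N q)
  set P := (cohPart χ hMN hl a).prod (cohPart χ hMN hl a)
  obtain ⟨r₀, hr₀mem, hr₀⟩ := H.exists_leftInverse_base W hl
  obtain ⟨d, b, b₀, hbmem, hb, hinj, hrange⟩ :=
    exists_basis_cohPart hMN' hχ hl p hD hp (he.mul_level q) H.nonEis
  set B := diamondSum hMN' hχ b
  choose c₁ hc₁mem hc₁ using fun j => exists_coresC_eq_of_mem_cohPart hMN hχ hl he
    (hr₀mem (b₀ j : Coh (N * q) trivChar O)).1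
  choose c₂ hc₂mem hc₂ using fun j => exists_coresC_eq_of_mem_cohPart hMN hχ hl he
    (hr₀mem (b₀ j : Coh (N * q) trivChar O)).2
  have hrep : ∀ z, cohProj χ hMN' hl a z ∈ LinearMap.range B := fun z => by
    rw [hrange]; exact cohProj_mem _ hl a z
  set rep : Coh (N * q) χ O →ₗ[O] (D → Fin d → O) :=
    (LinearEquiv.ofInjective B hinj).symm.toLinearMap.comp
      (LinearMap.codRestrict _ (cohProj χ hMN' hl a) hrep)
  have hBrep : ∀ z, B (rep z) = cohProj χ hMN' hl a z := fun z =>
    LinearEquiv.ofInjective_symm_apply B (h := hinj) ⟨_, hrep z⟩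
  set r' := ((diamondSum hMN hχ c₁).comp rep).prod ((diamondSum hMN hχ c₂).comp rep)
  have hsum_mem : ∀ (c : Fin d → Coh N χ O), (∀ j, c j ∈ cohPart χ hMN hl a) → ∀ f,
      diamondSum hMN hχ c f ∈ cohPart χ hMN hl a := fun c hc f => by
    rw [diamondSum_apply]
    exact sum_mem fun δ _ => diamond_mem_cohPart hMN hχ hl δ
      (sum_mem fun j _ => Submodule.smul_mem _ _ (hc j))
  have hr'mem : ∀ z, r' z ∈ P := fun z => ⟨hsum_mem c₁ hc₁mem _, hsum_mem c₂ hc₂mem _⟩
  have hr'D : ∀ δ z, r' (diamond O O χ hMN' hχ δ z) =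
      (diamond O O χ hMN hχ δ (r' z).1, diamond O O χ hMN hχ δ (r' z).2) := fun δ z => by
    have e : rep (diamond O O χ hMN' hχ δ z) = fun ε => rep z (δ⁻¹ * ε) := hinj (by
      rw [hBrep, ← Module.End.mul_apply, ← (commute_cohProj hMN' hl a
        fun i => diamond_opP_comm O O hMN' hχ δ (hl i)).eq, Module.End.mul_apply, ← hBrep,
        diamond_diamondSum])
    refine Prod.ext ?_ ?_
    · show diamondSum hMN hχ c₁ (rep _) = diamond O O χ hMN hχ δ (diamondSum hMN hχ c₁ (rep z))
      rw [e, diamond_diamondSum]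
    · show diamondSum hMN hχ c₂ (rep _) = diamond O O χ hMN hχ δ (diamondSum hMN hχ c₂ (rep z))
      rw [e, diamond_diamondSum]
  have hr'C : ∀ z ∈ cohPart χ hMN' hl a,
      (coresC O χ hMN hχ (r' z).1, coresC O χ hMN hχ (r' z).2) =
        r₀ (coresC O χ hMN' hχ z) := fun z hz => by
    have hz' : B (rep z) = z := (hBrep z).trans ((mem_cohPart_iff _ hl a).mp hz)
    conv_rhs => rw [← hz', diamondSum_apply]
    simp only [map_sum, coresC_diamond, map_smul, hb]
    refine Prod.ext ?_ ?_
    · show coresC O χ hMN hχ (diamondSum hMN hχ c₁ (rep z)) = _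
      rw [diamondSum_apply, Prod.fst_sum, map_sum]
      refine Finset.sum_congr rfl fun δ _ => ?_
      rw [Prod.fst_sum, coresC_diamond, map_sum]
      exact Finset.sum_congr rfl fun j _ => by rw [map_smul, hc₁, Prod.smul_fst]
    · show coresC O χ hMN hχ (diamondSum hMN hχ c₂ (rep z)) = _
      rw [diamondSum_apply, Prod.snd_sum, map_sum]
      refine Finset.sum_congr rfl fun δ _ => ?_
      rw [Prod.snd_sum, coresC_diamond, map_sum]
      exact Finset.sum_congr rfl fun j _ => by rw [map_smul, hc₂, Prod.smul_snd]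
  set F := r'.comp (degB W χ hMN)
  have hFP : ∀ u ∈ P, F u ∈ P := fun u _ => hr'mem _
  have hFD : ∀ δ (u : Coh N χ O × Coh N χ O),
      F (diamond O O χ hMN hχ δ u.1, diamond O O χ hMN hχ δ u.2) =
        (diamond O O χ hMN hχ δ (F u).1, diamond O O χ hMN hχ δ (F u).2) := fun δ u => by
    show r' (degB W χ hMN _) = (_, _)
    rw [degB_apply, ← resB_diamond O hMN (dvd_mul_right N q) hχ,
      ← resB_diamond O hMN (dvd_mul_right N q) hχ, ← Module.End.mul_apply (opW O W χ hMN),
      (opW_diamond O W hMN hχ δ).eq, Module.End.mul_apply, ← map_add, hr'D]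
    rfl
  have hFsurj : P ≤ P.map F := prod_le_of_coresC hMN hχ hl a p hD hp he _
    (by rintro _ ⟨u, hu, rfl⟩; exact hFP u hu)
    (by
      rintro δ _ ⟨u, hu, rfl⟩
      exact ⟨_, ⟨diamond_mem_cohPart hMN hχ hl δ hu.1, diamond_mem_cohPart hMN hχ hl δ hu.2⟩,
        hFD δ u⟩)
    (fun u hu => by
      refine ⟨_, ⟨u, hu, rfl⟩, Prod.mk_inj.mp ?_⟩
      show (coresC O χ hMN hχ (r' (degB W χ hMN u)).1,
        coresC O χ hMN hχ (r' (degB W χ hMN u)).2) = _
      rw [hr'C _ (degB_mem_cohPart W hMN hl H.ne hu)]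
      have e : coresC O χ hMN' hχ (degB W χ hMN u) = degB W trivChar (one_dvd N)
          (coresC O χ hMN hχ u.1, coresC O χ hMN hχ u.2) := by
        rw [degB_apply, degB_apply, map_add, coresC_opW W hMN hχ, coresC_resB hMN hχ,
          coresC_resB hMN hχ]
      rw [e]
      exact hr₀ _ ⟨coresC_mem_cohPart hMN hχ hl hu.1, coresC_mem_cohPart hMN hχ hl hu.2⟩)
  let FP : P →ₗ[O] P := F.restrict hFP
  have hs : Function.Surjective FP := fun u => by
    obtain ⟨w, hw, e⟩ := hFsurj u.2
    exact ⟨⟨w, hw⟩, Subtype.ext e⟩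
  let Fe := LinearEquiv.ofBijective FP
    ⟨OrzechProperty.injective_of_surjective_endomorphism FP hs, hs⟩
  let r := P.subtype.comp (Fe.symm.toLinearMap.comp (LinearMap.codRestrict P r' hr'mem))
  refine ⟨r, fun z => (Fe.symm ⟨r' z, hr'mem z⟩).2, fun δ z => ?_, fun u hu => ?_⟩
  · set v := Fe.symm ⟨r' z, hr'mem z⟩
    let v' : P := ⟨(diamond O O χ hMN hχ δ v.1.1, diamond O O χ hMN hχ δ v.1.2),
      diamond_mem_cohPart hMN hχ hl δ v.2.1, diamond_mem_cohPart hMN hχ hl δ v.2.2⟩
    have hv' : Fe v' = ⟨_, hr'mem (diamond O O χ hMN' hχ δ z)⟩ := Subtype.ext (by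
      show F v'.1 = r' (diamond O O χ hMN' hχ δ z)
      rw [hFD δ v.1, hr'D, show F v.1 = r' z from congrArg Subtype.val (Fe.apply_symm_apply _)])
    show ((Fe.symm ⟨_, hr'mem _⟩ : P) : Coh N χ O × Coh N χ O) = _
    rw [← hv', Fe.symm_apply_apply]
    rfl
  · show ((Fe.symm ⟨_, hr'mem _⟩ : P) : Coh N χ O × Coh N χ O) = _
    rw [show (⟨_, hr'mem (degB W χ hMN u)⟩ : P) = Fe ⟨u, hu⟩ from rfl, Fe.symm_apply_apply]

end FLTAgent.RT
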